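/-
GATE-F (S44) / GF-ETATE, file 0 = PIN (helper70): the ONE curve-side Prop which the E-side of S44
(multiplicative reduction at `p`, `p ∣ v_p(Δ)`, Tate curve) owes, in the consumer shape of helper57's
`GF/Peu/Field.peu_field_of_unit` / `peu_valuation_of_unit` (route-independent S2).

`KummerUnit W p A ζ` : for every `w0 ≠ 0` in the FROZEN `W[p] = Tp W p` on which `I_A` acts through
the mod-`p` cyclotomic character, and every `x : W[p]`, there is a UNIT `α ∈ A^×` of `ℚ̄` with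
`ρ α = ζ ^ κ * α` for every tame `ρ ∈ I' = I_A ∩ Stab ζ` with `ρ x = x + κ w0`.
(= the conclusion of `GF/Peu/Main.exists_unit_of_hasFinOrder` for `M := Tp W p`; for S40 it follows
from `HasFinOrder`, for S44 from the Tate parametrisation `GF/ETate/Main.lean`.)

* `kummerUnit_of_hasFinOrder` : the S40 source (good reduction, helper57);
* `peu_field_of_kummerUnit`, `peu_valuation_of_kummerUnit` : S2 on the frozen `W[p]`, field form
  and valuation form, VERBATIM the conclusions of helper57's `peu_field` / `peu_valuation`.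
-/
import Mathlib
import Fermat.Agent.GF.Peu.Field
import Fermat.Agent.GB.A.A6.ECDet

set_option autoImplicit false
set_option linter.unusedSectionVars false

open Fermat.Agent.Common_helper32
open Fermat.Agent.GB.A.A6.ECDet Fermat.Agent.GF.Peu Fermat.Agent.GH.Closure

namespace Fermat.Agent.GF.ETate

variable (W : WeierstrassCurve ℤ) (p : ℕ) [Fact p.Prime]

/-- the frozen Galois action on `W[p]` as additive maps (the `act` of `GF/Peu`). -/
noncomputable def actTp : GQ → Tp W p →+ Tp W p := fun σ => (rho W p σ).toAddMonoidHom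

theorem actTp_apply (σ : GQ) (x : Tp W p) : actTp W p σ x = rho W p σ x := rfl

/-- **PIN: the Kummer unit of the E-side.** -/
def KummerUnit (A : ValuationSubring Qb) (ζ : Qb) : Prop :=
  ∀ w0 : Tp W p, w0 ≠ 0 →
    (∀ σ ∈ A.inertiaSubgroupIn ℚ, ∀ k : ℕ, σ ζ = ζ ^ k → rho W p σ w0 = k • w0) →
    ∀ x : Tp W p, ∃ α : Qb, α ≠ 0 ∧ α ∈ A ∧ α⁻¹ ∈ A ∧
      ∀ ρ : GQ, IsTameFix A ζ ρ → ∀ κ : ℕ, rho W p ρ x = x + κ • w0 → ρ α = ζ ^ κ * α

variable {W p}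

theorem nsmul_eq_zero_Tp (x : Tp W p) : p • x = 0 := by
  have h := x.2
  rw [Submodule.mem_torsionBy_iff] at h
  apply Subtype.ext
  rw [Submodule.coe_smul_of_tower, ZeroMemClass.coe_zero, ← h]
  exact (natCast_zsmul _ _).symm

/-- the S40 source of the pin: a finite `Δ`-stable order on `W[p]` (good reduction). -/
theorem kummerUnit_of_hasFinOrder (hp2 : p ≠ 2) {A : ValuationSubring Qb}
    (hA : (p : Qb) ∈ A.nonunits) {ζ : Qb} (hζ : IsPrimitiveRoot ζ p)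
    (h : HasFinOrder p (actTp W p)) : KummerUnit W p A ζ := by
  intro w0 hw0 hω x
  exact exists_unit_of_hasFinOrder hp2 h hA hζ hw0 (nsmul_eq_zero_Tp w0) hω x

/-- **S2 on the frozen `W[p]`, field form**, from the pin. -/
theorem peu_field_of_kummerUnit {A : ValuationSubring Qb} {ζ : Qb} (hζ : IsPrimitiveRoot ζ p)
    (h : KummerUnit W p A ζ) {w0 : Tp W p} (hw0 : w0 ≠ 0)
    (hω : ∀ σ ∈ A.inertiaSubgroupIn ℚ, ∀ k : ℕ, σ ζ = ζ ^ k → rho W p σ w0 = k • w0)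
    (x : Tp W p)
    (hshape : ∀ ρ : GQ, IsTameFix A ζ ρ → ∃ κ : ℕ, rho W p ρ x = x + κ • w0)
    {γ : Qb} (hγ0 : γ ≠ 0) (hγp : ∀ ρ : GQ, IsTameFix A ζ ρ → ρ (γ ^ p) = γ ^ p)
    (hγL : ∀ ρ : GQ, IsTameFix A ζ ρ → rho W p ρ x = x → ρ γ = γ) :
    ∃ β u : Qb, β ≠ 0 ∧ (∀ ρ : GQ, IsTameFix A ζ ρ → ρ β = β) ∧ u ∈ A ∧ u⁻¹ ∈ A ∧
      γ ^ p = u * β ^ p := by
  obtain ⟨α, hα0, hα, hα', hρα⟩ := h w0 hw0 hω x
  exact peu_field_of_unit (act := actTp W p) hζ (nsmul_eq_zero_Tp w0) x hshape hα0 hα hα' hρα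
    hγ0 hγp hγL

/-- **S2 on the frozen `W[p]`, valuation form**, from the pin. -/
theorem peu_valuation_of_kummerUnit {A : ValuationSubring Qb} {ζ : Qb}
    (hζ : IsPrimitiveRoot ζ p)
    (h : KummerUnit W p A ζ) {w0 : Tp W p} (hw0 : w0 ≠ 0)
    (hω : ∀ σ ∈ A.inertiaSubgroupIn ℚ, ∀ k : ℕ, σ ζ = ζ ^ k → rho W p σ w0 = k • w0)
    (x : Tp W p)
    (hshape : ∀ ρ : GQ, IsTameFix A ζ ρ → ∃ κ : ℕ, rho W p ρ x = x + κ • w0)
    {γ : Qb} (hγ0 : γ ≠ 0) (hγp : ∀ ρ : GQ, IsTameFix A ζ ρ → ρ (γ ^ p) = γ ^ p)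
    (hγL : ∀ ρ : GQ, IsTameFix A ζ ρ → rho W p ρ x = x → ρ γ = γ) :
    ∃ β : Qb, β ≠ 0 ∧ (∀ ρ : GQ, IsTameFix A ζ ρ → ρ β = β) ∧
      A.valuation (γ ^ p) = A.valuation β ^ p := by
  obtain ⟨α, hα0, hα, hα', hρα⟩ := h w0 hw0 hω x
  exact peu_valuation_of_unit (act := actTp W p) hζ (nsmul_eq_zero_Tp w0) x hshape hα0 hα hα'
    hρα hγ0 hγp hγL

end Fermat.Agent.GF.ETate
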