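/-
GATE-F (S44) / GF-ETATE, file E1 (helper70): the bridge `ℚ̄ ↪ ℂ_[p]` and the continuous extension of
the local Galois group to `ℂ_[p]`.

`p` prime, `ι = padicEmbedding p : ℚ̄ → PadicAlgCl p` (Prelude), `A = padicPlace p`,
`r = localGaloisToGlobal p : G_{ℚ_p} → G_ℚ` (range `= D_A`, `GC/Local/KrasnerDec`).

* `embK p : ℚ̄ →+* ℂ_[p]`, injective, `x ∈ A ↔ ‖embK x‖ ≤ 1`, `x ∈ A.nonunits ↔ ‖embK x‖ < 1`,
  dense image (`exists_norm_sub_embK_lt`, Krasner density from `GC/Local/KrasnerDense`);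
* `extK p τ : ℂ_[p] ≃+* ℂ_[p]` for `τ ∈ G_{ℚ_p}`: isometric, continuous, fixes `ℚ_[p]`,
  `extK τ (embK x) = embK (r τ x)`;
* `norm_extK_sub_lt_one` : `r τ ∈ I_A ⟹ ‖extK τ z - z‖ < 1` on the unit ball (trivial residue action);
* `exists_embK_eq_of_isIntegral`, `exists_embK_eq_of_pow_eq` : elements of `ℂ_[p]` algebraic over
  `embK ℚ̄` come from `ℚ̄`.
-/
import Mathlib
import Fermat.Prelude.Def_GaloisRep_CompletionBridge
import Fermat.Agent.GC.Local.KrasnerDec
import Fermat.Agent.S05.Inertia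

set_option autoImplicit false
set_option linter.unusedSectionVars false

noncomputable section

open scoped Pointwise

namespace Fermat.Agent.GF.ETate.Ext

open Fermat.Agent.GC.Local.KR

local notation "Qb" => AlgebraicClosure ℚ
local notation "GQ" => (AlgebraicClosure ℚ ≃ₐ[ℚ] AlgebraicClosure ℚ)

variable (p : ℕ) [Fact p.Prime]

/-! ### the embedding -/

/-- `ℚ̄ → ℂ_[p]`. -/
def embK : Qb →+* ℂ_[p] :=
  (algebraMap (PadicAlgCl p) ℂ_[p]).comp ((padicEmbedding p : Qb →ₐ[ℚ] PadicAlgCl p) : Qb →+* PadicAlgCl p)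

theorem embK_apply (x : Qb) : embK p x = ((padicEmbedding p x : PadicAlgCl p) : ℂ_[p]) := rfl

theorem embK_injective : Function.Injective (embK p) := (embK p).injective

theorem norm_embK (x : Qb) : ‖embK p x‖ = ‖padicEmbedding p x‖ := by
  rw [embK_apply, PadicComplex.norm_extends]

theorem mem_padicPlace_iff_norm_embK {x : Qb} : x ∈ padicPlace p ↔ ‖embK p x‖ ≤ 1 := by
  rw [norm_embK, mem_padicPlace_iff_norm]

theorem mem_nonunits_iff_norm_embK {x : Qb} : x ∈ (padicPlace p).nonunits ↔ ‖embK p x‖ < 1 := by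
  rw [ValuationSubring.mem_nonunits_iff]
  by_cases hx0 : x = 0
  · subst hx0
    rw [map_zero, map_zero, norm_zero]
    exact ⟨fun _ => zero_lt_one, fun _ => zero_lt_one⟩
  have hn0 : 0 < ‖embK p x‖ := by
    rw [norm_pos_iff]
    exact fun h => hx0 (embK_injective p (by rw [h, map_zero]))
  have h1 : (padicPlace p).valuation x < 1 ↔ ¬ x⁻¹ ∈ padicPlace p := by
    rw [← ValuationSubring.valuation_le_one_iff, map_inv₀, not_le,
      one_lt_inv₀ ((padicPlace p).valuation.pos_iff.2 hx0)]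
  rw [h1, mem_padicPlace_iff_norm_embK, map_inv₀, norm_inv, not_le, one_lt_inv₀ hn0]

/-- **density** of `embK ℚ̄` in `ℂ_[p]`. -/
theorem exists_norm_sub_embK_lt (z : ℂ_[p]) {ε : ℝ} (hε : 0 < ε) :
    ∃ a : Qb, ‖z - embK p a‖ < ε := by
  have hd : DenseRange ((↑) : PadicAlgCl p → ℂ_[p]) := UniformSpace.Completion.denseRange_coe
  obtain ⟨b, hb⟩ : ∃ b : PadicAlgCl p, ‖z - (b : ℂ_[p])‖ < ε / 2 := by
    have := hd.exists_dist_lt z (half_pos hε)
    obtain ⟨b, hb⟩ := this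
    exact ⟨b, by rwa [dist_eq_norm] at hb⟩
  obtain ⟨a, ha⟩ := exists_norm_sub_padicEmbedding_lt p b (half_pos hε)
  refine ⟨a, ?_⟩
  have h1 : ‖(b : ℂ_[p]) - embK p a‖ < ε / 2 := by
    rw [embK_apply, ← UniformSpace.Completion.coe_sub, PadicComplex.norm_extends]
    exact ha
  calc ‖z - embK p a‖ = ‖(z - (b : ℂ_[p])) + ((b : ℂ_[p]) - embK p a)‖ := by
        rw [sub_add_sub_cancel]
    _ ≤ ‖z - (b : ℂ_[p])‖ + ‖(b : ℂ_[p]) - embK p a‖ := norm_add_le _ _
    _ < ε := by linarith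

/-! ### the extension of the local Galois group -/

theorem isometry_algEquiv (τ : Gq p) : Isometry τ := by
  refine Isometry.of_dist_eq fun x y => ?_
  rw [dist_eq_norm, dist_eq_norm, ← map_sub]
  exact congrArg NNReal.toReal (nnnorm_padicAlgCl_algEquiv p τ (x - y))

/-- the continuous extension of `τ ∈ G_{ℚ_p}` to `ℂ_[p]`. -/
def extK (τ : Gq p) : ℂ_[p] ≃+* ℂ_[p] :=
  UniformSpace.Completion.mapRingEquiv (τ : PadicAlgCl p ≃+* PadicAlgCl p)
    (isometry_algEquiv p τ).continuous (isometry_algEquiv p τ.symm).continuous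

theorem extK_apply (τ : Gq p) (z : ℂ_[p]) :
    extK p τ z = UniformSpace.Completion.map τ z := rfl

theorem extK_coe (τ : Gq p) (x : PadicAlgCl p) :
    extK p τ (x : ℂ_[p]) = ((τ x : PadicAlgCl p) : ℂ_[p]) := by
  rw [extK_apply]
  exact UniformSpace.Completion.map_coe (isometry_algEquiv p τ).uniformContinuous x

theorem isometry_extK (τ : Gq p) : Isometry (extK p τ) :=
  (isometry_algEquiv p τ).completion_map

theorem continuous_extK (τ : Gq p) : Continuous (extK p τ) := (isometry_extK p τ).continuous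

theorem norm_extK (τ : Gq p) (z : ℂ_[p]) : ‖extK p τ z‖ = ‖z‖ := by
  have h := (isometry_extK p τ).dist_eq z 0
  rwa [map_zero, dist_zero_right, dist_zero_right] at h

theorem extK_algebraMap (τ : Gq p) (c : ℚ_[p]) :
    extK p τ (algebraMap ℚ_[p] ℂ_[p] c) = algebraMap ℚ_[p] ℂ_[p] c := by
  have h : algebraMap ℚ_[p] ℂ_[p] c = ((algebraMap ℚ_[p] (PadicAlgCl p) c : PadicAlgCl p) : ℂ_[p]) :=
    rfl
  rw [h, extK_coe, τ.commutes]

theorem extK_embK (τ : Gq p) (x : Qb) :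
    extK p τ (embK p x) = embK p (localGaloisToGlobal p τ x) := by
  rw [embK_apply, extK_coe, embK_apply, padicEmbedding_localGaloisToGlobal]

theorem exists_local_of_mem_decomposition {σ : GQ}
    (hσ : σ ∈ (padicPlace p).decompositionSubgroup ℚ) : ∃ τ : Gq p, localGaloisToGlobal p τ = σ :=
  (mem_decompositionSubgroup_iff p σ).1 hσ

/-! ### inertia acts trivially on the residue field of `ℂ_[p]` -/

theorem norm_sub_le_max_Cp (a b : ℂ_[p]) : ‖a - b‖ ≤ max ‖a‖ ‖b‖ := by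
  have h := IsUltrametricDist.norm_add_le_max a (-b)
  rwa [norm_neg, ← sub_eq_add_neg] at h

theorem norm_extK_sub_lt_one {τ : Gq p}
    (hτ : localGaloisToGlobal p τ ∈ (padicPlace p).inertiaSubgroupIn ℚ) {z : ℂ_[p]}
    (hz : ‖z‖ ≤ 1) : ‖extK p τ z - z‖ < 1 := by
  obtain ⟨a, ha⟩ := exists_norm_sub_embK_lt p z zero_lt_one
  have haA : a ∈ padicPlace p := by
    rw [mem_padicPlace_iff_norm_embK]
    have h1 : embK p a = z - (z - embK p a) := by ring
    rw [h1]
    exact (norm_sub_le_max_Cp p _ _).trans (max_le hz ha.le)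
  have h2 := Fermat.Agent.S05.apply_sub_mem_nonunits_of_mem_inertiaSubgroupIn hτ haA
  rw [mem_nonunits_iff_norm_embK, map_sub, ← extK_embK] at h2
  have h3 : extK p τ z - z
      = (extK p τ (z - embK p a) + (extK p τ (embK p a) - embK p a)) - (z - embK p a) := by
    rw [map_sub]; ring
  rw [h3]
  refine lt_of_le_of_lt (norm_sub_le_max_Cp p _ _) (max_lt ?_ ha)
  refine lt_of_le_of_lt (IsUltrametricDist.norm_add_le_max _ _) (max_lt ?_ h2)
  rw [norm_extK]
  exact ha

/-! ### algebraic elements of `ℂ_[p]` -/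

/-- elements of `ℂ_[p]` integral over `ℚ` come from `ℚ̄`. -/
theorem exists_embK_eq_of_isIntegral {y : ℂ_[p]} (hy : IsIntegral ℚ y) : ∃ a : Qb, embK p a = y := by
  obtain ⟨f, hfm, hf⟩ := hy
  have hf0 : f ≠ 0 := hfm.ne_zero
  have hsplit : (f.map (algebraMap ℚ Qb)).Splits := IsAlgClosed.splits _
  have hcomp : (algebraMap ℚ ℂ_[p]) = (embK p).comp (algebraMap ℚ Qb) :=
    Subsingleton.elim _ _
  have hroot : ((f.map (algebraMap ℚ Qb)).map (embK p)).IsRoot y := by
    rw [Polynomial.map_map, ← hcomp, Polynomial.IsRoot.def, Polynomial.eval_map]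
    exact hf
  obtain ⟨a, ha⟩ := hsplit.mem_range_of_isRoot (Polynomial.map_ne_zero hf0) hroot
  exact ⟨a, ha⟩

theorem exists_embK_eq_of_pow_eq {n : ℕ} (hn : n ≠ 0) {y : ℂ_[p]} {c : Qb}
    (h : y ^ n = embK p c) : ∃ a : Qb, embK p a = y := by
  apply exists_embK_eq_of_isIntegral
  have hc : IsIntegral ℚ (embK p c) := by
    have h1 : IsIntegral ℚ c := (AlgebraicClosure.isAlgebraic ℚ).isIntegral.isIntegral c
    have hcomp : (algebraMap ℚ ℂ_[p]) = (embK p).comp (algebraMap ℚ Qb) :=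
      Subsingleton.elim _ _
    obtain ⟨g, hgm, hg⟩ := h1
    refine ⟨g, hgm, ?_⟩
    rw [hcomp, ← Polynomial.eval₂_map, Polynomial.eval₂_hom, ← Polynomial.eval₂_eq_eval_map, hg,
      map_zero]
  rw [← h] at hc
  exact IsIntegral.of_pow (Nat.pos_of_ne_zero hn) hc

end Fermat.Agent.GF.ETate.Ext
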