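/-
GATE-F (S44) / GF-ETATE, file E2 (helper70): the Tate series commute with CONTINUOUS ring
homomorphisms between complete ultrametric normed fields.

`φ : K →+* L` continuous (`K`, `L` complete ultrametric normed fields), `‖q‖ < 1`:
* `map_sK`, `map_a4`, `map_a6`, `map_tateCurve : (tateCurve q).map φ = tateCurve (φ q)`;
* `map_X`, `map_Y` : `φ (X q u) = X (φ q) (φ u)`, `φ (Y q u) = Y (φ q) (φ u)` (`q ≠ 0`, `u ≠ 0`);
* `isAdm_map_iff` : `IsAdm (φ q) (φ u) ↔ IsAdm q u`.
Used (a) with `φ = algebraMap ℚ_[p] ℂ_[p]` to place the Tate parameter in `ℚ_[p]`, and (b) with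
`φ =` the continuous extension to `ℂ_[p]` of an element of the decomposition group (Galois
equivariance of the Tate parametrisation on torsion points).
-/
import Mathlib
import Fermat.Agent.GZ.Tate.Conv

set_option autoImplicit false
set_option linter.unusedSectionVars false

noncomputable section

namespace Fermat.Agent.GF.ETate.TateGal

open Fermat.Agent.GZ.Tate

variable {K L : Type*} [NormedField K] [IsUltrametricDist K] [CompleteSpace K]
  [NormedField L] [IsUltrametricDist L] [CompleteSpace L] (φ : K →+* L)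

theorem map_sTerm (k : ℕ) (q : K) (n : ℕ) : φ (sTerm k q n) = sTerm k (φ q) n := by
  unfold sTerm
  rw [map_div₀, map_mul, map_pow, map_pow, map_natCast, map_sub, map_one, map_pow]

theorem map_a6Term (q : K) (n : ℕ) : φ (a6Term q n) = a6Term (φ q) n := by
  unfold a6Term
  rw [map_div₀, map_mul, map_pow, map_natCast, map_sub, map_one, map_pow]

theorem map_xTerm (w : K) : φ (xTerm w) = xTerm (φ w) := by
  unfold xTerm
  rw [map_div₀, map_pow, map_sub, map_one]

theorem map_yTerm (w : K) : φ (yTerm w) = yTerm (φ w) := by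
  unfold yTerm
  rw [map_div₀, map_pow, map_pow, map_sub, map_one]

variable (hφ : Continuous φ)
include hφ

theorem map_tsum_of_summable {ι : Type*} {f : ι → K} (hf : Summable f) :
    φ (∑' i, f i) = ∑' i, φ (f i) := by
  have h := hf.hasSum.map φ.toAddMonoidHom hφ
  exact h.tsum_eq.symm

theorem map_sK (k : ℕ) {q : K} (hq1 : ‖q‖ < 1) : φ (sK k q) = sK k (φ q) := by
  unfold sK
  rw [map_tsum_of_summable φ hφ (summable_sTerm k hq1)]
  exact tsum_congr fun n => map_sTerm φ k q n

theorem map_a4 {q : K} (hq1 : ‖q‖ < 1) : φ (a4 q) = a4 (φ q) := by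
  unfold a4
  rw [map_mul, map_neg, map_sK φ hφ 3 hq1]
  congr 1
  rw [map_ofNat]

theorem map_a6 {q : K} (hq1 : ‖q‖ < 1) : φ (a6 q) = a6 (φ q) := by
  unfold a6
  rw [map_neg, map_tsum_of_summable φ hφ (summable_a6Term hq1)]
  congr 1
  exact tsum_congr fun n => map_a6Term φ q n

/-- **the Tate curve is compatible with continuous ring homomorphisms.** -/
theorem map_tateCurve {q : K} (hq1 : ‖q‖ < 1) : (tateCurve q).map φ = tateCurve (φ q) := by
  unfold tateCurve
  ext
  · simp
  · simp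
  · simp
  · show φ (a4 q) = a4 (φ q)
    exact map_a4 φ hφ hq1
  · show φ (a6 q) = a6 (φ q)
    exact map_a6 φ hφ hq1

theorem map_X {q u : K} (hq0 : q ≠ 0) (hq1 : ‖q‖ < 1) (hu : u ≠ 0) :
    φ (X q u) = X (φ q) (φ u) := by
  unfold X
  rw [map_sub, map_mul, map_sK φ hφ 1 hq1, map_ofNat,
    map_tsum_of_summable φ hφ (summable_xTerm_zpow hq0 hq1 hu)]
  congr 1
  refine tsum_congr fun n => ?_
  rw [map_xTerm, map_mul, map_zpow₀]

theorem map_Y {q u : K} (hq0 : q ≠ 0) (hq1 : ‖q‖ < 1) (hu : u ≠ 0) :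
    φ (Y q u) = Y (φ q) (φ u) := by
  unfold Y
  rw [map_add, map_sK φ hφ 1 hq1,
    map_tsum_of_summable φ hφ (summable_yTerm_zpow hq0 hq1 hu)]
  congr 1
  refine tsum_congr fun n => ?_
  rw [map_yTerm, map_mul, map_zpow₀]

omit hφ in
theorem isAdm_map_iff {q u : K} : IsAdm (φ q) (φ u) ↔ IsAdm q u := by
  have hinj : Function.Injective φ := φ.injective
  unfold IsAdm
  constructor
  · rintro ⟨h0, h1⟩
    refine ⟨fun h => h0 (by rw [h, map_zero]), fun n hn => h1 n ?_⟩
    rw [← map_zpow₀, ← map_mul, hn, map_one]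
  · rintro ⟨h0, h1⟩
    refine ⟨fun h => h0 (hinj (by rw [h, map_zero])), fun n hn => h1 n (hinj ?_)⟩
    rw [map_mul, map_zpow₀, hn, map_one]

end Fermat.Agent.GF.ETate.TateGal
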