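/-
GATE-F (S44) / GF-ETATE, file E4a (helper70): the variable change of a Tate uniformisation over
`ℂ_[p]` is FIXED by the inertia group.

* `variableChange_eq_of_smul_eq` : `C' • W = C • W`, `C'.u = C.u`, characteristic zero ⟹ `C' = C`;
* `eq_one_of_pow_four_eq_one` : a fourth root of unity `≡ 1` modulo the maximal ideal is `1`
  (residue characteristic odd);
* `map_C_eq` : `T : TateUnif W ℂ_[p]` with `T.q ∈ ℚ_[p]`, `p ∤ c₄(W)`, `p` odd, `τ ∈ G_{ℚ_p}` with
  `r τ ∈ I_A` ⟹ `T.C.map (extK τ) = T.C`.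
-/
import Mathlib
import Fermat.Agent.GF.ETate.Ext
import Fermat.Agent.GF.ETate.TateGal
import Fermat.Agent.GZ.Tate.T4.Plug

set_option autoImplicit false
set_option linter.unusedSectionVars false

noncomputable section

namespace Fermat.Agent.GF.ETate.VarFix

open WeierstrassCurve Fermat.Agent.GZ.Tate Fermat.Agent.GZ.Tate.T4
open Fermat.Agent.GF.ETate.Ext Fermat.Agent.GC.Local.KR

/-- a variable change is determined by its `u` and its effect on one curve (char. zero). -/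
theorem variableChange_eq_of_smul_eq {F : Type*} [Field F] [CharZero F] (W : WeierstrassCurve F)
    {C C' : VariableChange F} (h : C' • W = C • W) (hu : C'.u = C.u) : C' = C := by
  have h1 := congrArg WeierstrassCurve.a₁ h
  have h2 := congrArg WeierstrassCurve.a₂ h
  have h3 := congrArg WeierstrassCurve.a₃ h
  rw [variableChange_a₁, variableChange_a₁, hu] at h1
  rw [variableChange_a₂, variableChange_a₂, hu] at h2
  rw [variableChange_a₃, variableChange_a₃, hu] at h3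
  have hu0 : ((C.u⁻¹ : Fˣ) : F) ≠ 0 := Units.ne_zero _
  have h2' : (2 : F) ≠ 0 := two_ne_zero
  have h3' : (3 : F) ≠ 0 := three_ne_zero
  have hs : C'.s = C.s := by
    have := mul_left_cancel₀ hu0 h1
    have := add_left_cancel this
    exact mul_left_cancel₀ h2' this
  have hr : C'.r = C.r := by
    have := mul_left_cancel₀ (pow_ne_zero 2 hu0) h2
    rw [hs] at this
    have h4 : 3 * C'.r = 3 * C.r := by linear_combination this
    exact mul_left_cancel₀ h3' h4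
  have ht : C'.t = C.t := by
    have := mul_left_cancel₀ (pow_ne_zero 3 hu0) h3
    rw [hr] at this
    have h4 : 2 * C'.t = 2 * C.t := by linear_combination this
    exact mul_left_cancel₀ h2' h4
  ext
  · rw [hu]
  · exact hr
  · exact hs
  · exact ht

section Root

variable {K : Type*} [NormedField K] [IsUltrametricDist K]

/-- a fourth root of unity congruent to `1` is `1`, when `‖4‖ = 1`. -/
theorem eq_one_of_pow_four_eq_one (h4 : ‖(4 : K)‖ = 1) {ε : K} (hε : ε ^ 4 = 1)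
    (hε1 : ‖ε - 1‖ < 1) : ε = 1 := by
  by_contra hne
  have hn : ‖ε‖ = 1 := by
    have h := congrArg (fun z : K => ‖z‖) hε
    simp only [norm_pow, norm_one] at h
    exact (pow_eq_one_iff_of_nonneg (norm_nonneg ε) (by norm_num)).1 h
  have hfac : (ε - 1) * (ε ^ 3 + ε ^ 2 + ε + 1) = 0 := by
    have : (ε - 1) * (ε ^ 3 + ε ^ 2 + ε + 1) = ε ^ 4 - 1 := by ring
    rw [this, hε, sub_self]
  have h0 : ε ^ 3 + ε ^ 2 + ε + 1 = 0 :=
    (mul_eq_zero.1 hfac).resolve_left (sub_ne_zero.2 hne)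
  have hsplit : (4 : K) = (ε ^ 3 + ε ^ 2 + ε + 1) - (ε - 1) * (ε ^ 2 + 2 * ε + 3) := by ring
  rw [h0, zero_sub] at hsplit
  have hb : ‖ε ^ 2 + 2 * ε + 3‖ ≤ 1 := by
    have e2 : ‖ε ^ 2‖ ≤ 1 := by rw [norm_pow, hn, one_pow]
    have e1 : ‖2 * ε‖ ≤ 1 := by
      rw [norm_mul, hn, mul_one]
      exact_mod_cast IsUltrametricDist.norm_natCast_le_one K 2
    have e0 : ‖(3 : K)‖ ≤ 1 := by exact_mod_cast IsUltrametricDist.norm_natCast_le_one K 3
    exact (IsUltrametricDist.norm_add_le_max _ _).trans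
      (max_le ((IsUltrametricDist.norm_add_le_max _ _).trans (max_le e2 e1)) e0)
  have : ‖(4 : K)‖ < 1 := by
    rw [hsplit, norm_neg, norm_mul]
    calc ‖ε - 1‖ * ‖ε ^ 2 + 2 * ε + 3‖ ≤ ‖ε - 1‖ * 1 :=
          mul_le_mul_of_nonneg_left hb (norm_nonneg _)
      _ = ‖ε - 1‖ := mul_one _
      _ < 1 := hε1
  rw [h4] at this
  exact lt_irrefl _ this

end Root

variable {p : ℕ} [hp : Fact p.Prime]

theorem norm_four_padicComplex (hp2 : p ≠ 2) : ‖(4 : ℂ_[p])‖ = 1 := by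
  have h : ¬ (p : ℤ) ∣ (4 : ℤ) := by
    intro hd
    have h1 : (p : ℤ) ∣ (2 : ℤ) ^ 2 := by norm_num; exact hd
    have h2 := (Nat.prime_iff_prime_int.mp hp.out).dvd_of_dvd_pow h1
    have h3 : p ∣ 2 := by exact_mod_cast h2
    exact hp2 ((Nat.prime_dvd_prime_iff_eq hp.out Nat.prime_two).1 h3)
  have := norm_intCast_eq_one_of_not_dvd (K := ℂ_[p]) hp.out (norm_natCast_self_padicComplex p) h
  simpa using this

/-- **the variable change of the Tate uniformisation is fixed by inertia.** -/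
theorem map_C_eq (hp2 : p ≠ 2) {W : WeierstrassCurve ℤ} (hc₄ : ¬ (p : ℤ) ∣ W.c₄)
    (T : TateUnif W ℂ_[p]) {q' : ℚ_[p]} (hq : T.q = algebraMap ℚ_[p] ℂ_[p] q') {τ : Gq p}
    (hτ : localGaloisToGlobal p τ ∈ (padicPlace p).inertiaSubgroupIn ℚ) :
    T.C.map ((extK p τ : ℂ_[p] ≃+* ℂ_[p]) : ℂ_[p] →+* ℂ_[p]) = T.C := by
  set φ : ℂ_[p] →+* ℂ_[p] := ((extK p τ : ℂ_[p] ≃+* ℂ_[p]) : ℂ_[p] →+* ℂ_[p]) with hφ
  have hφc : Continuous φ := continuous_extK p τ
  have hφq : φ T.q = T.q := by rw [hq]; exact extK_algebraMap p τ q'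
  set WK : WeierstrassCurve ℂ_[p] := W.map (Int.castRingHom ℂ_[p]) with hWK
  have hWmap : WK.map φ = WK := by
    rw [hWK, WeierstrassCurve.map_map]
    congr 1
    exact RingHom.ext_int _ _
  have hEmap : (tateCurve T.q).map φ = tateCurve T.q := by
    rw [TateGal.map_tateCurve φ hφc T.norm_q, hφq]
  have hsm : (T.C.map φ) • WK = T.C • WK := by
    have h1 := WeierstrassCurve.map_variableChange WK T.C φ
    rw [hWmap, T.hC, hEmap, ← T.hC] at h1
    exact h1
  -- the `u`-coordinate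
  have hc4K : WK.c₄ = ((W.c₄ : ℤ) : ℂ_[p]) := by rw [hWK, WeierstrassCurve.map_c₄]; rfl
  have hnc4 : ‖WK.c₄‖ = 1 := by
    rw [hc4K]
    exact norm_intCast_eq_one_of_not_dvd hp.out (norm_natCast_self_padicComplex p) hc₄
  have hc40 : WK.c₄ ≠ 0 := by
    intro h; rw [h, norm_zero] at hnc4; exact zero_ne_one hnc4
  have hu4 : ((T.C.map φ).u⁻¹ : ℂ_[p]ˣ) ^ 4 = (T.C.u⁻¹ : ℂ_[p]ˣ) ^ 4 := by
    have h1 := congrArg WeierstrassCurve.c₄ hsm
    rw [variableChange_c₄, variableChange_c₄] at h1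
    have h2 := mul_right_cancel₀ hc40 h1
    apply Units.ext
    rw [Units.val_pow_eq_pow_val, Units.val_pow_eq_pow_val]
    exact h2
  have hnu : ‖((T.C.u : ℂ_[p]ˣ) : ℂ_[p])‖ = 1 := by
    have h1 : ‖(T.C • WK).c₄‖ = 1 := by
      rw [hWK, T.hC]; exact T0.norm_pinned_c₄ T.q T.norm_q
    rw [variableChange_c₄, norm_mul, norm_pow, hnc4, mul_one] at h1
    have h2 : ‖((T.C.u⁻¹ : ℂ_[p]ˣ) : ℂ_[p])‖ = 1 :=
      (pow_eq_one_iff_of_nonneg (norm_nonneg _) (by norm_num)).1 h1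
    rw [Units.val_inv_eq_inv_val, norm_inv] at h2
    exact inv_eq_one.1 h2
  have hu : (T.C.map φ).u = T.C.u := by
    have hu4' : (T.C.map φ).u ^ 4 = T.C.u ^ 4 := by
      have := congrArg (fun v : ℂ_[p]ˣ => v⁻¹) hu4
      simpa using this
    set u : ℂ_[p] := ((T.C.u : ℂ_[p]ˣ) : ℂ_[p]) with hudef
    have hu0 : u ≠ 0 := Units.ne_zero _
    have hmapu : (((T.C.map φ).u : ℂ_[p]ˣ) : ℂ_[p]) = φ u := rfl
    have hε : (φ u / u) ^ 4 = 1 := by
      have h1 := congrArg (fun v : ℂ_[p]ˣ => (v : ℂ_[p])) hu4'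
      simp only [Units.val_pow_eq_pow_val, hmapu] at h1
      rw [div_pow, h1, div_self (pow_ne_zero 4 hu0)]
    have hε1 : ‖φ u / u - 1‖ < 1 := by
      have h1 : φ u / u - 1 = (φ u - u) / u := by field_simp
      rw [h1, norm_div, hnu, div_one]
      exact norm_extK_sub_lt_one p hτ hnu.le
    have h1 := eq_one_of_pow_four_eq_one (norm_four_padicComplex hp2) hε hε1
    apply Units.ext
    rw [hmapu]
    field_simp at h1
    exact h1
  exact variableChange_eq_of_smul_eq WK hsm hu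

/-- coordinate form. -/
theorem extK_C (hp2 : p ≠ 2) {W : WeierstrassCurve ℤ} (hc₄ : ¬ (p : ℤ) ∣ W.c₄)
    (T : TateUnif W ℂ_[p]) {q' : ℚ_[p]} (hq : T.q = algebraMap ℚ_[p] ℂ_[p] q') {τ : Gq p}
    (hτ : localGaloisToGlobal p τ ∈ (padicPlace p).inertiaSubgroupIn ℚ) :
    extK p τ ((T.C.u : ℂ_[p]ˣ) : ℂ_[p]) = ((T.C.u : ℂ_[p]ˣ) : ℂ_[p]) ∧
      extK p τ T.C.r = T.C.r ∧ extK p τ T.C.s = T.C.s ∧ extK p τ T.C.t = T.C.t := by
  have h := map_C_eq hp2 hc₄ T hq hτ
  refine ⟨?_, ?_, ?_, ?_⟩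
  · have := congrArg (fun C : VariableChange ℂ_[p] => ((C.u : ℂ_[p]ˣ) : ℂ_[p])) h
    exact this
  · exact congrArg (fun C : VariableChange ℂ_[p] => C.r) h
  · exact congrArg (fun C : VariableChange ℂ_[p] => C.s) h
  · exact congrArg (fun C : VariableChange ℂ_[p] => C.t) h

end Fermat.Agent.GF.ETate.VarFix
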