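/-
GATE-F / S44, node GF-ETATE, leaf E3 (a) of helper70's board 6257 (helper25): the Tate
uniformisation of `W` over `ℂ_[p]` with a parameter `q` coming from `ℚ_[p]`.

`exists_tateUnif_padic` : `W/ℤ`, `Δ ≠ 0`, `p ∣ Δ`, `p ∤ c₄` ⟹
  `∃ (q' : ℚ_[p]) (T : TateUnif W ℂ_[p]), T.q = algebraMap ℚ_[p] ℂ_[p] q' ∧ ‖q'‖ = ‖(Δ : ℚ_[p])‖`.

Route: GZ/Tate/T0 `exists_pinned_j_eq` over `K := ℚ_[p]` (any complete ultrametric normed field),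
then `(tateCurve q').map (algebraMap ℚ_[p] ℂ_[p]) = tateCurve (algebraMap q')` (helper43
`T2/Equivar.map_tateCurve`, the structure map is isometric), equal `j` ⟹ Mathlib
`exists_variableChange_of_j_eq` over `ℂ_[p]`, exactly as `T4.exists_tateUnif`.
-/
import Mathlib
import Fermat.Agent.GZ.Tate.T0.Bridge
import Fermat.Agent.GZ.Tate.T2.Equivar
import Fermat.Agent.GZ.Tate.T4.Plug

set_option autoImplicit false
set_option linter.unusedSectionVars false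

noncomputable section

namespace Fermat.Agent.GF.ETate.Param

open WeierstrassCurve
open Fermat.Agent.GZ.Tate Fermat.Agent.GZ.Tate.T4

variable {p : ℕ} [hp : Fact p.Prime]

/-- the structure map `ℚ_[p] → ℂ_[p]` is isometric. -/
theorem norm_algebraMap_padic (x : ℚ_[p]) : ‖algebraMap ℚ_[p] ℂ_[p] x‖ = ‖x‖ :=
  PadicComplex.norm_extends' p x

theorem norm_natCast_p_padic : ‖((p : ℕ) : ℚ_[p])‖ < 1 := by
  rw [Padic.norm_p]
  have h1 : (1 : ℝ) < p := by exact_mod_cast hp.out.one_lt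
  exact inv_lt_one_of_one_lt₀ h1

/-- **E3 (a)**: Tate uniformisation over `ℂ_[p]` with parameter in `ℚ_[p]`. -/
theorem exists_tateUnif_padic (W : WeierstrassCurve ℤ) (hΔ : W.Δ ≠ 0)
    (hpΔ : (p : ℤ) ∣ W.Δ) (hc₄ : ¬ (p : ℤ) ∣ W.c₄) :
    ∃ (q' : ℚ_[p]) (T : TateUnif W ℂ_[p]), T.q = algebraMap ℚ_[p] ℂ_[p] q' ∧
      ‖q'‖ = ‖((W.Δ : ℤ) : ℚ_[p])‖ := by
  have hpp : p.Prime := hp.out
  set σ : ℚ_[p] →+* ℂ_[p] := algebraMap ℚ_[p] ℂ_[p] with hσ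
  have hσn : ∀ x, ‖σ x‖ = ‖x‖ := norm_algebraMap_padic
  -- norms over `ℚ_[p]`
  have hΔ0 : ((W.Δ : ℤ) : ℚ_[p]) ≠ 0 := Int.cast_ne_zero.2 hΔ
  have hnΔ : ‖((W.Δ : ℤ) : ℚ_[p])‖ < 1 :=
    norm_intCast_lt_one_of_dvd (K := ℚ_[p]) norm_natCast_p_padic hpΔ
  have hnc : ‖((W.c₄ : ℤ) : ℚ_[p])‖ = 1 :=
    norm_intCast_eq_one_of_not_dvd (K := ℚ_[p]) hpp norm_natCast_p_padic hc₄
  have hΔpos : 0 < ‖((W.Δ : ℤ) : ℚ_[p])‖ := norm_pos_iff.2 hΔ0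
  set a : ℚ_[p] := ((W.c₄ : ℤ) : ℚ_[p]) ^ 3 / ((W.Δ : ℤ) : ℚ_[p]) with ha
  have hna : ‖a‖ = ‖((W.Δ : ℤ) : ℚ_[p])‖⁻¹ := by
    rw [ha, norm_div, norm_pow, hnc, one_pow, one_div]
  have ha1 : 1 < ‖a‖ := by
    rw [hna]
    exact (one_lt_inv₀ hΔpos).2 hnΔ
  obtain ⟨q', hq0, hq1, hqn, hEq, hjq, -⟩ := T0.exists_pinned_j_eq ha1
  -- push to `ℂ_[p]`
  set q : ℂ_[p] := σ q' with hq
  have hq0' : q ≠ 0 := by
    rw [hq, Ne, map_eq_zero]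
    exact hq0
  have hq1' : ‖q‖ < 1 := by rw [hq, hσn]; exact hq1
  have hmap : (tateCurve q').map σ = tateCurve q :=
    Fermat.Agent.GZ.Tate.T2.Equivar.map_tateCurve σ hσn q'
  have hEq' : (tateCurve q).IsElliptic := by
    rw [← hmap]
    infer_instance
  have hjq' : (tateCurve q).j = σ a := by
    have h := WeierstrassCurve.map_j (tateCurve q') σ
    rw [hjq] at h
    have h2 : ((tateCurve q').map σ).j = (tateCurve q).j := by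
      congr 1
    rw [← h2]
    convert h using 2
  -- `W` over `ℂ_[p]`
  set WK : WeierstrassCurve ℂ_[p] := W.map (Int.castRingHom ℂ_[p]) with hWK
  have hΔK : WK.Δ = ((W.Δ : ℤ) : ℂ_[p]) := by rw [hWK, WeierstrassCurve.map_Δ]; rfl
  have hcK : WK.c₄ = ((W.c₄ : ℤ) : ℂ_[p]) := by rw [hWK, WeierstrassCurve.map_c₄]; rfl
  have hΔ0' : ((W.Δ : ℤ) : ℂ_[p]) ≠ 0 := Int.cast_ne_zero.2 hΔ
  have hE : WK.IsElliptic := ⟨by rw [hΔK]; exact hΔ0'.isUnit⟩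
  have hj : WK.j = ((W.c₄ : ℤ) : ℂ_[p]) ^ 3 / ((W.Δ : ℤ) : ℂ_[p]) := by
    rw [WeierstrassCurve.j, hcK, div_eq_inv_mul]
    congr 1
    rw [Units.val_inv_eq_inv_val, WeierstrassCurve.coe_Δ', hΔK]
  have hσa : σ a = ((W.c₄ : ℤ) : ℂ_[p]) ^ 3 / ((W.Δ : ℤ) : ℂ_[p]) := by
    rw [ha, map_div₀, map_pow, map_intCast, map_intCast]
  obtain ⟨C, hC⟩ := WeierstrassCurve.exists_variableChange_of_j_eq WK (tateCurve q)
    (by rw [hj, hjq', hσa])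
  refine ⟨q', ⟨q, hq0', hq1', C, hC⟩, rfl, ?_⟩
  rw [hqn, hna, inv_inv]

end Fermat.Agent.GF.ETate.Param
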