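/-
GATE-F / S44, node GF-ETATE, leaf E3 (b)+(c) of helper70's board 6257 (helper25).  Mathlib only.

* `exists_decomp` : a `p`-adic number `q'` with `‖q'‖ = p^{-p m}` is `p^{p m} · c · b^p` with
  `c ∈ ℚ` a `p`-adic unit and `b ∈ ℚ_p` a unit  (density of `ℚ` + Hensel at `X^p - x`, `a = 1`);
* `exists_norm_eq_of_isPeuRamifiee` : for `W/ℤ` with `p ∣ Δ` and `p ∣ v_p(Δ)` (the frozen
  `IsPeuRamifieeAt p p`): `‖Δ‖_p = p^{-p m}` with `0 < m`.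
-/
import Mathlib
import Fermat.Prelude.Def_WeierstrassCurve_PeuRamifiee

set_option autoImplicit false

noncomputable section

namespace Fermat.Agent.GF.ETate.Unit

open Polynomial

variable {p : ℕ} [hp : Fact p.Prime]

/-- a `p`-adic number close to `1` is a `p`-th power (Hensel). -/
theorem exists_pow_eq_of_norm_sub_one_lt {x : ℚ_[p]} (hx : ‖x - 1‖ < (p : ℝ)⁻¹ ^ 2) :
    ∃ b : ℚ_[p], b ≠ 0 ∧ ‖b‖ = 1 ∧ b ^ p = x := by
  have hP : (1 : ℝ) < p := by exact_mod_cast hp.out.one_lt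
  have hP0 : (0 : ℝ) < p := lt_trans zero_lt_one hP
  have hlt1 : (p : ℝ)⁻¹ ^ 2 < 1 := pow_lt_one₀ (inv_nonneg.2 hP0.le) (inv_lt_one_of_one_lt₀ hP)
    two_ne_zero
  have hx1 : ‖x‖ ≤ 1 := by
    have h : x = (x - 1) + 1 := by ring
    rw [h]
    refine (IsUltrametricDist.norm_add_le_max _ _).trans (max_le (hx.le.trans hlt1.le) ?_)
    rw [norm_one]
  set x' : ℤ_[p] := ⟨x, hx1⟩ with hx'
  set F : ℤ_[p][X] := X ^ p - C x' with hF
  have hFa : F.aeval (1 : ℤ_[p]) = 1 - x' := by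
    rw [hF]
    simp
  have hF' : F.derivative.aeval (1 : ℤ_[p]) = (p : ℤ_[p]) := by
    rw [hF, derivative_sub, derivative_C, sub_zero, derivative_X_pow]
    simp
  have hnorm : ‖F.aeval (1 : ℤ_[p])‖ < ‖F.derivative.aeval (1 : ℤ_[p])‖ ^ 2 := by
    rw [hFa, hF', PadicInt.norm_p]
    have h1 : ‖(1 - x' : ℤ_[p])‖ = ‖x - 1‖ := by
      rw [PadicInt.norm_def]
      push_cast
      rw [← norm_neg, neg_sub]
    rw [h1]
    exact hx
  obtain ⟨z, hz, hz1, -, -⟩ := hensels_lemma hnorm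
  have hzp : z ^ p = x' := by
    rw [hF] at hz
    simp only [map_sub, map_pow, aeval_X, aeval_C, Algebra.algebraMap_self, RingHom.id_apply]
      at hz
    exact sub_eq_zero.1 hz
  have hznorm : ‖z‖ = 1 := by
    rw [hF', PadicInt.norm_p] at hz1
    have h1 : ‖z - 1‖ < 1 := hz1.trans (inv_lt_one_of_one_lt₀ hP)
    by_contra hne
    have hlt : ‖z‖ < 1 := lt_of_le_of_ne (PadicInt.norm_le_one z) hne
    have h2 : ‖(1 : ℤ_[p])‖ ≤ max ‖z - 1‖ ‖z‖ := by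
      have h : (1 : ℤ_[p]) = -(z - 1) + z := by ring
      calc ‖(1 : ℤ_[p])‖ = ‖-(z - 1) + z‖ := by rw [← h]
        _ ≤ max ‖-(z - 1)‖ ‖z‖ := PadicInt.nonarchimedean _ _
        _ = max ‖z - 1‖ ‖z‖ := by rw [norm_neg]
    rw [norm_one] at h2
    exact absurd h2 (not_le.2 (max_lt h1 hlt))
  refine ⟨(z : ℚ_[p]), ?_, ?_, ?_⟩
  · intro h0
    have : ‖(z : ℚ_[p])‖ = 1 := by rw [← PadicInt.norm_def]; exact hznorm
    rw [h0, norm_zero] at this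
    exact zero_ne_one this
  · rw [← PadicInt.norm_def]
    exact hznorm
  · have := congrArg (fun y : ℤ_[p] => (y : ℚ_[p])) hzp
    simpa using this

/-- **E3 (b)**: `q' = p^{p m} · c · b^p`, `c ∈ ℚ` and `b ∈ ℚ_p` units. -/
theorem exists_decomp {q' : ℚ_[p]} {m : ℕ} (hn : ‖q'‖ = (p : ℝ)⁻¹ ^ (p * m)) :
    ∃ (c : ℚ) (b : ℚ_[p]), ‖(c : ℚ_[p])‖ = 1 ∧ b ≠ 0 ∧ ‖b‖ = 1 ∧
      q' = (p : ℚ_[p]) ^ (p * m) * (c : ℚ_[p]) * b ^ p := by
  have hP : (1 : ℝ) < p := by exact_mod_cast hp.out.one_lt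
  have hP0 : (0 : ℝ) < p := lt_trans zero_lt_one hP
  have hpQ : (p : ℚ_[p]) ≠ 0 := by exact_mod_cast hp.out.ne_zero
  have hpk : (p : ℚ_[p]) ^ (p * m) ≠ 0 := pow_ne_zero _ hpQ
  set q1 : ℚ_[p] := q' / (p : ℚ_[p]) ^ (p * m) with hq1
  have hq1n : ‖q1‖ = 1 := by
    rw [hq1, norm_div, norm_pow, Padic.norm_p, hn]
    exact div_self (pow_ne_zero _ (inv_ne_zero hP0.ne'))
  have hε : (0 : ℝ) < (p : ℝ)⁻¹ ^ 2 := pow_pos (inv_pos.2 hP0) 2
  have hε1 : (p : ℝ)⁻¹ ^ 2 < 1 := pow_lt_one₀ (inv_nonneg.2 hP0.le) (inv_lt_one_of_one_lt₀ hP)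
    two_ne_zero
  obtain ⟨c, hc⟩ := Padic.rat_dense p q1 hε
  have hcn : ‖(c : ℚ_[p])‖ = 1 := by
    have h1 : ‖q1 - c‖ < 1 := hc.trans hε1
    have h2 : (c : ℚ_[p]) = q1 + -(q1 - c) := by ring
    have h3 : q1 = (c : ℚ_[p]) + (q1 - c) := by ring
    apply le_antisymm
    · rw [h2]
      refine (IsUltrametricDist.norm_add_le_max _ _).trans (max_le hq1n.le ?_)
      rw [norm_neg]
      exact h1.le
    · by_contra hlt
      rw [not_le] at hlt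
      have h4 : ‖q1‖ < 1 := by
        rw [h3]
        exact (IsUltrametricDist.norm_add_le_max _ _).trans_lt (max_lt hlt h1)
      rw [hq1n] at h4
      exact lt_irrefl _ h4
  have hc0 : (c : ℚ_[p]) ≠ 0 := by
    intro h
    rw [h, norm_zero] at hcn
    exact zero_ne_one hcn
  have hx : ‖q1 / c - 1‖ < (p : ℝ)⁻¹ ^ 2 := by
    have h : q1 / c - 1 = (q1 - c) / c := by
      field_simp
    rw [h, norm_div, hcn, div_one]
    exact hc
  obtain ⟨b, hb0, hbn, hb⟩ := exists_pow_eq_of_norm_sub_one_lt hx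
  refine ⟨c, b, hcn, hb0, hbn, ?_⟩
  rw [hb, hq1]
  field_simp

omit hp in
/-- **E3 (c)**: `p ∣ Δ` and the frozen `IsPeuRamifieeAt p p` give `‖Δ‖_p = p^{-p m}`, `0 < m`. -/
theorem exists_norm_eq_of_isPeuRamifiee [Fact p.Prime] (W : WeierstrassCurve ℤ) (hΔ : W.Δ ≠ 0)
    (hpΔ : (p : ℤ) ∣ W.Δ)
    (hpeu : (W.map (Int.castRingHom ℚ)).IsPeuRamifieeAt p p) :
    ∃ m : ℕ, 0 < m ∧ ‖((W.Δ : ℤ) : ℚ_[p])‖ = (p : ℝ)⁻¹ ^ (p * m) := by
  have hpp : p.Prime := Fact.out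
  unfold WeierstrassCurve.IsPeuRamifieeAt at hpeu
  rw [WeierstrassCurve.map_Δ] at hpeu
  have hcast : (Int.castRingHom ℚ) W.Δ = ((W.Δ : ℤ) : ℚ) := rfl
  rw [hcast, padicValRat.of_int] at hpeu
  obtain ⟨k, hk⟩ := hpeu
  have hv1 : 1 ≤ padicValInt p W.Δ := by
    rw [padicValInt]
    have : p ∣ W.Δ.natAbs := Int.natCast_dvd.1 hpΔ
    exact one_le_padicValNat_of_dvd (Int.natAbs_ne_zero.2 hΔ) this
  have hk0 : 0 < k := by
    by_contra hk0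
    rw [not_lt] at hk0
    have h1 : ((padicValInt p W.Δ : ℕ) : ℤ) ≤ 0 := by
      rw [hk]
      exact mul_nonpos_of_nonneg_of_nonpos (by positivity) hk0
    have h2 : (1 : ℤ) ≤ (padicValInt p W.Δ : ℕ) := by exact_mod_cast hv1
    linarith
  refine ⟨k.toNat, by omega, ?_⟩
  have hΔQ : ((W.Δ : ℤ) : ℚ_[p]) ≠ 0 := Int.cast_ne_zero.2 hΔ
  rw [Padic.norm_eq_zpow_neg_valuation hΔQ, Padic.valuation_intCast, hk, inv_pow, ← zpow_natCast,
    ← zpow_neg]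
  congr 1
  push_cast
  rw [Int.toNat_of_nonneg hk0.le]

end Fermat.Agent.GF.ETate.Unit
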