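/-
GATE-F / S44, node GF-ETATE (helper25): the `p`-th root `t₀` of the Tate parameter and the KUMMER
UNIT `α ∈ ℚ̄`.

For `W/ℤ` multiplicative at `p` with `p ∣ v_p(Δ)` (frozen `IsPeuRamifieeAt p p`):
`exists_root_unit` : a Tate uniformisation `T` of `W` over `ℂ_[p]` with `T.q ∈ ℚ_[p]`, a unit
`α ∈ ℚ̄` of `padicPlace p` and `d ∈ ℚ_[p]ˣ` such that `t₀ := d · embK α` satisfies `t₀ ^ p = T.q`.
Hence (`extK_root`) every `τ ∈ G_{ℚ_p}` moves `t₀` exactly as `σ = localGaloisToGlobal τ` moves `α`: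
`τ̂ t₀ = d · embK (σ α)`; in particular `σ α = ζ^κ α ↔ τ̂ t₀ = embK ζ ^ κ · t₀` (`extK_root_iff`).
No Kummer theory over the completion is needed: the Kummer unit of the peu ramifiée extension
`K'(W[p]) / K'` lives in `ℚ̄`.
-/
import Mathlib
import Fermat.Agent.GF.ETate.Ext
import Fermat.Agent.GF.ETate.Param
import Fermat.Agent.GF.ETate.Unit

set_option autoImplicit false
set_option linter.unusedSectionVars false

noncomputable section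

namespace Fermat.Agent.GF.ETate.Root

open WeierstrassCurve
open Fermat.Agent.GZ.Tate Fermat.Agent.GZ.Tate.T4
open Fermat.Agent.GF.ETate.Ext Fermat.Agent.GF.ETate.Param Fermat.Agent.GF.ETate.Unit

local notation "Qb" => AlgebraicClosure ℚ
local notation "GQ" => (AlgebraicClosure ℚ ≃ₐ[ℚ] AlgebraicClosure ℚ)

variable (p : ℕ) [hp : Fact p.Prime]

theorem embK_ratCast (c : ℚ) : embK p (c : Qb) = algebraMap ℚ_[p] ℂ_[p] (c : ℚ_[p]) := by
  rw [map_ratCast, map_ratCast]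

/-- a `p`-th root in `ℚ̄` of a rational `p`-adic unit is a unit of `padicPlace p`. -/
theorem unit_of_pow_eq {c : ℚ} (hc : ‖(c : ℚ_[p])‖ = 1) {α : Qb} (hα : α ^ p = (c : Qb)) :
    α ≠ 0 ∧ α ∈ padicPlace p ∧ α⁻¹ ∈ padicPlace p := by
  have hpp : p.Prime := hp.out
  have h1 : ‖embK p α‖ ^ p = 1 := by
    rw [← norm_pow, ← map_pow, hα, embK_ratCast, norm_algebraMap_padic, hc]
  have h2 : ‖embK p α‖ = 1 :=
    (pow_eq_one_iff_of_nonneg (norm_nonneg _) hpp.ne_zero).1 h1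
  refine ⟨?_, ?_, ?_⟩
  · rintro rfl
    rw [map_zero, norm_zero] at h2
    exact zero_ne_one h2
  · rw [mem_padicPlace_iff_norm_embK, h2]
  · rw [mem_padicPlace_iff_norm_embK, map_inv₀, norm_inv, h2, inv_one]

/-- **the root and the unit.** -/
theorem exists_root_unit (W : WeierstrassCurve ℤ) (hΔ : W.Δ ≠ 0) (hpΔ : (p : ℤ) ∣ W.Δ)
    (hc₄ : ¬ (p : ℤ) ∣ W.c₄) (hpeu : (W.map (Int.castRingHom ℚ)).IsPeuRamifieeAt p p) :
    ∃ (T : TateUnif W ℂ_[p]) (q' : ℚ_[p]) (α : Qb) (d : ℚ_[p]),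
      T.q = algebraMap ℚ_[p] ℂ_[p] q' ∧ ‖q'‖ = ‖((W.Δ : ℤ) : ℚ_[p])‖ ∧
      α ≠ 0 ∧ α ∈ padicPlace p ∧ α⁻¹ ∈ padicPlace p ∧ d ≠ 0 ∧
      (algebraMap ℚ_[p] ℂ_[p] d * embK p α) ^ p = T.q := by
  have hpp : p.Prime := hp.out
  obtain ⟨m, -, hm⟩ := exists_norm_eq_of_isPeuRamifiee W hΔ hpΔ hpeu
  obtain ⟨q', T, hTq, hqn⟩ := exists_tateUnif_padic (p := p) W hΔ hpΔ hc₄
  obtain ⟨c, b, hcn, hb0, -, hq'⟩ := exists_decomp (p := p) (q' := q') (m := m) (hqn.trans hm)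
  obtain ⟨α, hα⟩ := IsAlgClosed.exists_pow_nat_eq (c : Qb) hpp.pos
  obtain ⟨hα0, hαA, hαA'⟩ := unit_of_pow_eq p hcn hα
  have hpQ : (p : ℚ_[p]) ≠ 0 := by exact_mod_cast hpp.ne_zero
  refine ⟨T, q', α, (p : ℚ_[p]) ^ m * b, hTq, hqn, hα0, hαA, hαA',
    mul_ne_zero (pow_ne_zero _ hpQ) hb0, ?_⟩
  rw [mul_pow, ← map_pow, ← map_pow, hα, embK_ratCast, ← map_mul, hTq]
  congr 1
  rw [hq', mul_pow, ← pow_mul, mul_comm m p]
  ring

/-- **Galois action on the root** = Galois action on the unit. -/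
theorem extK_root (τ : PadicAlgCl p ≃ₐ[ℚ_[p]] PadicAlgCl p) (d : ℚ_[p]) (α : Qb) :
    extK p τ (algebraMap ℚ_[p] ℂ_[p] d * embK p α) =
      algebraMap ℚ_[p] ℂ_[p] d * embK p (localGaloisToGlobal p τ α) := by
  rw [map_mul, extK_algebraMap, extK_embK]

/-- `σ α = ζ^κ α ↔ τ̂ t₀ = (embK ζ)^κ t₀`, `t₀ = d · embK α`. -/
theorem extK_root_iff (τ : PadicAlgCl p ≃ₐ[ℚ_[p]] PadicAlgCl p) {d : ℚ_[p]} (hd : d ≠ 0)
    (α ζ : Qb) (κ : ℕ) :
    extK p τ (algebraMap ℚ_[p] ℂ_[p] d * embK p α) =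
        embK p ζ ^ κ * (algebraMap ℚ_[p] ℂ_[p] d * embK p α) ↔
      localGaloisToGlobal p τ α = ζ ^ κ * α := by
  rw [extK_root]
  have hd' : algebraMap ℚ_[p] ℂ_[p] d ≠ 0 := by
    rw [Ne, map_eq_zero]
    exact hd
  constructor
  · intro h
    apply embK_injective p
    apply mul_left_cancel₀ hd'
    rw [h, map_mul, map_pow]
    ring
  · intro h
    rw [h, map_mul, map_pow]
    ring

end Fermat.Agent.GF.ETate.Root
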