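/-
GATE-F (S44) / GF-ETATE, file E4 = MAIN (helper70): the Kummer unit of the E-side at a prime `p` of
multiplicative reduction (`p ∣ Δ`, `p ∤ c₄`) with `ρ̄_{W,p}` peu ramifiée at `p`, `p` odd.

`K = ℂ_[p]`, `(T, q', α₁, d) := Root.exists_root_unit` (Tate uniformisation `C • W_K = E_q` with
`q = T.q ∈ ℚ_[p]`, and `t₀ = d · embK α₁` a `p`-th root of `q`, `α₁ ∈ A^×`, `d ∈ ℚ_[p]`).

* `toK`              : `W(ℚ̄) → W_K(K)` (coordinates through `embK`), additive and injective;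
* `toTate_toK_smul`  : **inertia-equivariance**: for `ρ = localGaloisToGlobal p τ ∈ I_A`,
  `Ψ P = tateP u ⟹ Ψ (ρ • P) = tateP (τ̂ u)` (`Ψ = T.toTate ∘ toK`, `τ̂ = extK p τ`);
* `kummerUnit_tate`  : `KummerUnit W p (padicPlace p) ζ`.
-/
import Mathlib
import Fermat.Agent.GF.ETate.Pin
import Fermat.Agent.GF.ETate.Root
import Fermat.Agent.GF.ETate.VarFix
import Fermat.Agent.GZ.Tate.T2.Equivar
import Fermat.Agent.GZ.Tate.T3.FinalN
import Fermat.Agent.GZ.Tate.T3.KummerN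
import Fermat.Agent.GL.Local.TameZeta

set_option autoImplicit false
set_option linter.unusedSectionVars false

noncomputable section

namespace Fermat.Agent.GF.ETate.Main

open WeierstrassCurve
open scoped WeierstrassCurve.Affine
open Fermat.Agent.Common_helper32
open Fermat.Agent.S05
open Fermat.Agent.GZ.Tate Fermat.Agent.GZ.Tate.T2 Fermat.Agent.GZ.Tate.T4
open Fermat.Agent.GB.A.A6.ECDet Fermat.Agent.GF.Peu
open Fermat.Agent.GF.ETate Fermat.Agent.GF.ETate.Ext Fermat.Agent.GC.Local.KR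

variable (p : ℕ) [hp : Fact p.Prime]

local instance instDecEqCp : DecidableEq ℂ_[p] := Classical.decEq _

/-- `embK` as a `ℚ`-algebra homomorphism. -/
def embKA : Qb →ₐ[ℚ] ℂ_[p] := (embK p).toRatAlgHom

theorem embKA_apply (x : Qb) : embKA p x = embK p x := rfl

variable (W : WeierstrassCurve ℤ)

/-- `W(ℚ̄) → W_K(K)`, `K = ℂ_[p]`. -/
def toK : ((W.map (Int.castRingHom ℚ))⁄Qb).Point →+
    (W.map (Int.castRingHom ℂ_[p])).toAffine.Point :=
  (pointCongr (baseChange_rat_eq W ℂ_[p])).toAddMonoidHom.comp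
    (Affine.Point.map (W' := W.map (Int.castRingHom ℚ)) (embKA p))

theorem toK_some {a b : Qb} (h : ((W.map (Int.castRingHom ℚ))⁄Qb).toAffine.Nonsingular a b) :
    ∃ h', toK p W (.some a b h) = .some (embK p a) (embK p b) h' := ⟨_, rfl⟩

theorem toK_injective : Function.Injective (toK p W) := by
  intro P Q h
  have h1 := (pointCongr (baseChange_rat_eq W ℂ_[p])).injective h
  exact Affine.Point.map_injective _ h1

theorem smul_some (σ : GQ) {a b : Qb}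
    (h : ((W.map (Int.castRingHom ℚ))⁄Qb).toAffine.Nonsingular a b) :
    ∃ h', σ • (Affine.Point.some a b h : ((W.map (Int.castRingHom ℚ))⁄Qb).Point) =
      .some (σ a) (σ b) h' := ⟨_, rfl⟩

variable {W}

/-- **inertia-equivariance of the Tate parametrisation**, parameter form. -/
theorem toTate_toK_smul (hp2 : p ≠ 2) (hc₄ : ¬ (p : ℤ) ∣ W.c₄) (T : TateUnif W ℂ_[p])
    {q' : ℚ_[p]} (hq : T.q = algebraMap ℚ_[p] ℂ_[p] q') {τ : Gq p}
    (hτ : localGaloisToGlobal p τ ∈ (padicPlace p).inertiaSubgroupIn ℚ)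
    (P : ((W.map (Int.castRingHom ℚ))⁄Qb).Point) (u : ℂ_[p]ˣ)
    (hP : T.toTate (toK p W P) = Final.tateP T.q T.q_ne T.norm_q u) :
    T.toTate (toK p W (localGaloisToGlobal p τ • P)) =
      Final.tateP T.q T.q_ne T.norm_q
        (Units.map ((((extK p τ : ℂ_[p] ≃+* ℂ_[p]) : ℂ_[p] →+* ℂ_[p])) : ℂ_[p] →* ℂ_[p]) u) := by
  set φ : ℂ_[p] →+* ℂ_[p] := ((extK p τ : ℂ_[p] ≃+* ℂ_[p]) : ℂ_[p] →+* ℂ_[p]) with hφ
  have hφn : ∀ x, ‖φ x‖ = ‖x‖ := norm_extK p τ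
  have hφq : φ T.q = T.q := by rw [hq]; exact extK_algebraMap p τ q'
  obtain ⟨hCu, hCr, hCs, hCt⟩ := VarFix.extK_C hp2 hc₄ T hq hτ
  have hP' : toK p W P = T.toTate.symm (Final.tateP T.q T.q_ne T.norm_q u) := by
    rw [← hP, AddEquiv.symm_apply_apply]
  rw [← AddEquiv.eq_symm_apply]
  rcases P with _ | ⟨a, b, h⟩
  · have h0 : Final.tateP T.q T.q_ne T.norm_q u = 0 := by
      rw [← hP]
      exact (map_zero T.toTate)
    have h0' : Final.tateP T.q T.q_ne T.norm_q (Units.map (φ : ℂ_[p] →* ℂ_[p]) u) = 0 :=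
      (Equivar.tateP_map_fix_eq_zero_iff φ T.q hφq (Final.hns T.q_ne T.norm_q) u).2 h0
    rw [h0', map_zero]
    rfl
  · have hadm : IsAdm T.q (u : ℂ_[p]) := by
      by_contra hna
      have h0 : Final.tateP T.q T.q_ne T.norm_q u = 0 :=
        Hom.tateP_of_not_isAdm T.q (Final.hns T.q_ne T.norm_q) hna
      rw [h0, map_zero] at hP'
      exact Affine.Point.some_ne_zero _ hP'
    have hadm' : IsAdm T.q ((Units.map (φ : ℂ_[p] →* ℂ_[p]) u : ℂ_[p]ˣ) : ℂ_[p]) := by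
      rw [Units.coe_map]
      exact (Equivar.isAdm_map_fix_iff φ T.q hφq u).2 hadm
    rw [Final.tateP_of_isAdm T.q_ne T.norm_q hadm] at hP'
    obtain ⟨h1, e1⟩ := T.toTate_symm_some (Final.hns T.q_ne T.norm_q u hadm)
    rw [e1] at hP'
    have hab : embK p a = vcX T.C (X T.q u) ∧ embK p b = vcY T.C (X T.q u) (Y T.q u) := by
      have h2 : (Affine.Point.some (embK p a) (embK p b) (toK_some p W h).choose :
          (W.map (Int.castRingHom ℂ_[p])).toAffine.Point) = _ := hP'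
      injection h2 with hx hy
      exact ⟨hx, hy⟩
    rw [Final.tateP_of_isAdm T.q_ne T.norm_q hadm']
    obtain ⟨h2, e2⟩ := T.toTate_symm_some (Final.hns T.q_ne T.norm_q _ hadm')
    rw [e2]
    have hXφ : X T.q ((Units.map (φ : ℂ_[p] →* ℂ_[p]) u : ℂ_[p]ˣ) : ℂ_[p]) = φ (X T.q u) := by
      rw [Units.coe_map]
      exact (Equivar.map_X_fix φ hφn T.q hφq u).symm
    have hYφ : Y T.q ((Units.map (φ : ℂ_[p] →* ℂ_[p]) u : ℂ_[p]ˣ) : ℂ_[p]) = φ (Y T.q u) := by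
      rw [Units.coe_map]
      exact (Equivar.map_Y_fix φ hφn T.q hφq u).symm
    have hxa : embK p (localGaloisToGlobal p τ a) = vcX T.C (φ (X T.q u)) := by
      rw [← extK_embK, hab.1]
      show φ (vcX T.C (X T.q u)) = _
      unfold vcX
      rw [map_add, map_mul, map_pow]
      show extK p τ _ ^ 2 * _ + extK p τ _ = _
      rw [hCu, hCr]
    have hyb : embK p (localGaloisToGlobal p τ b) = vcY T.C (φ (X T.q u)) (φ (Y T.q u)) := by
      rw [← extK_embK, hab.2]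
      show φ (vcY T.C (X T.q u) (Y T.q u)) = _
      unfold vcY
      rw [map_add, map_add, map_mul, map_mul, map_mul, map_pow, map_pow]
      show extK p τ _ ^ 3 * _ + extK p τ _ ^ 2 * extK p τ _ * _ + extK p τ _ = _
      rw [hCu, hCs, hCt]
    show (Affine.Point.some (embK p (localGaloisToGlobal p τ a))
      (embK p (localGaloisToGlobal p τ b)) _ :
        (W.map (Int.castRingHom ℂ_[p])).toAffine.Point) = _
    apply Hom.some_congr
    · rw [hxa, hXφ]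
    · rw [hyb, hXφ, hYφ]

/-! ### `Ψ : W[p] → E_q(K)` -/

/-- `Ψ = T.toTate ∘ toK` on the frozen `W[p]`. -/
def Psi (T : TateUnif W ℂ_[p]) : Tp W p →+ (tateCurve T.q).toAffine.Point :=
  (T.toTate.toAddMonoidHom.comp (toK p W)).comp
    (Submodule.torsionBy ℤ ((W.map (Int.castRingHom ℚ))⁄Qb).Point p).subtype.toAddMonoidHom

theorem Psi_apply (T : TateUnif W ℂ_[p]) (x : Tp W p) :
    Psi p T x = T.toTate (toK p W (x : ((W.map (Int.castRingHom ℚ))⁄Qb).Point)) := rfl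

theorem Psi_injective (T : TateUnif W ℂ_[p]) : Function.Injective (Psi p T) := by
  intro x y h
  rw [Psi_apply, Psi_apply] at h
  exact Subtype.ext (toK_injective p W (T.toTate.injective h))

theorem nsmul_Psi (T : TateUnif W ℂ_[p]) (x : Tp W p) : p • Psi p T x = 0 := by
  rw [← map_nsmul, nsmul_eq_zero_Tp, map_zero]

/-- inertia-equivariance of `Ψ`. -/
theorem Psi_rho (hp2 : p ≠ 2) (hc₄ : ¬ (p : ℤ) ∣ W.c₄) (T : TateUnif W ℂ_[p])
    {q' : ℚ_[p]} (hq : T.q = algebraMap ℚ_[p] ℂ_[p] q') {τ : Gq p}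
    (hτ : localGaloisToGlobal p τ ∈ (padicPlace p).inertiaSubgroupIn ℚ)
    (x : Tp W p) (u : ℂ_[p]ˣ) (hx : Psi p T x = Final.tateP T.q T.q_ne T.norm_q u) :
    Psi p T (rho W p (localGaloisToGlobal p τ) x) =
      Final.tateP T.q T.q_ne T.norm_q
        (Units.map ((((extK p τ : ℂ_[p] ≃+* ℂ_[p]) : ℂ_[p] →+* ℂ_[p])) : ℂ_[p] →* ℂ_[p]) u) := by
  rw [WeierstrassCurve.Affine.Point.galoisRepModuleEnd_apply]
  exact toTate_toK_smul p hp2 hc₄ T hq hτ _ u hx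

/-! ### the Kummer unit -/

/-- **GF-ETATE**: the Kummer unit of the E-side at a prime of multiplicative reduction with
`ρ̄_{W,p}` peu ramifiée at `p`. -/
theorem kummerUnit_tate (hp2 : p ≠ 2) (W : WeierstrassCurve ℤ) (hΔ : W.Δ ≠ 0)
    (hpΔ : (p : ℤ) ∣ W.Δ) (hc₄ : ¬ (p : ℤ) ∣ W.c₄)
    (hpeu : (W.map (Int.castRingHom ℚ)).IsPeuRamifieeAt p p) {ζ : Qb}
    (hζ : IsPrimitiveRoot ζ p) : KummerUnit W p (padicPlace p) ζ := by
  have hpp : p.Prime := hp.out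
  obtain ⟨T, q', α1, d, hTq, -, hα0, hαA, hαA', hd, ht0⟩ :=
    Root.exists_root_unit p W hΔ hpΔ hc₄ hpeu
  have hq0 : T.q ≠ 0 := T.q_ne
  have hq1 : ‖T.q‖ < 1 := T.norm_q
  -- the root of unity in `K`
  have hζK0 : embK p ζ ≠ 0 := by
    rw [Ne, map_eq_zero]
    exact hζ.ne_zero hpp.ne_zero
  set ζK : ℂ_[p]ˣ := Units.mk0 (embK p ζ) hζK0 with hζKdef
  have hζK : IsPrimitiveRoot (ζK : ℂ_[p]) p := hζ.map_of_injective (embK_injective p)
  -- the root of `q`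
  have ht00 : algebraMap ℚ_[p] ℂ_[p] d * embK p α1 ≠ 0 := by
    intro h
    rw [h, zero_pow hpp.ne_zero] at ht0
    exact hq0 ht0.symm
  set t0 : ℂ_[p]ˣ := Units.mk0 (algebraMap ℚ_[p] ℂ_[p] d * embK p α1) ht00 with ht0def
  have ht0' : t0 ^ p = Units.mk0 T.q hq0 := by
    apply Units.ext
    rw [Units.val_pow_eq_pow_val]
    exact ht0
  have hA : (p : Qb) ∈ (padicPlace p).nonunits := by
    rw [mem_nonunits_iff_norm_embK, map_natCast]
    exact norm_natCast_self_padicComplex p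
  -- the action of an inertia element on parameters
  have key : ∀ ρ ∈ (padicPlace p).inertiaSubgroupIn ℚ, ∀ a : ℕ, ρ ζ = ζ ^ a →
      ∃ (s : ℂ_[p]ˣ →* ℂ_[p]ˣ) (c : ℕ), s ζK = ζK ^ a ∧ s t0 = ζK ^ c * t0 ∧
        ρ α1 = ζ ^ c * α1 ∧
        ∀ (y : Tp W p) (u : ℂ_[p]ˣ), Psi p T y = Final.tateP T.q hq0 hq1 u →
          Psi p T (rho W p ρ y) = Final.tateP T.q hq0 hq1 (s u) := by
    intro ρ hρ a hρζ
    obtain ⟨τ, rfl⟩ := exists_local_of_mem_decomposition p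
      (mem_decompositionSubgroup_of_mem_inertiaSubgroupIn hρ)
    set φ : ℂ_[p] →+* ℂ_[p] := ((extK p τ : ℂ_[p] ≃+* ℂ_[p]) : ℂ_[p] →+* ℂ_[p]) with hφ
    have hφq : φ T.q = T.q := by rw [hTq]; exact extK_algebraMap p τ q'
    have hmem : t0 ^ p ∈ Subgroup.zpowers (Units.mk0 T.q hq0) := by
      rw [ht0']; exact Subgroup.mem_zpowers _
    obtain ⟨c, -, hc⟩ := Equivar.map_param_of_pow_mem φ T.q hq0 hφq hpp.pos hζK t0 hmem
    refine ⟨Units.map (φ : ℂ_[p] →* ℂ_[p]), c, ?_, hc, ?_, ?_⟩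
    · apply Units.ext
      rw [Units.coe_map, Units.val_pow_eq_pow_val]
      show extK p τ (embK p ζ) = embK p ζ ^ a
      rw [extK_embK, hρζ, map_pow]
    · rw [← Root.extK_root_iff p τ hd α1 ζ c]
      have h1 := congrArg (fun w : ℂ_[p]ˣ => (w : ℂ_[p])) hc
      simp only [Units.coe_map, Units.val_mul, Units.val_pow_eq_pow_val] at h1
      exact h1
    · intro y u hy
      exact Psi_rho p hp2 hc₄ T hTq hρ y u hy
  intro w0 hw0 hω x
  -- (M3) `Ψ w0 = P (ζ^i0)`, `p ∤ i0`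
  obtain ⟨i0, k0, -, hk0, hw⟩ :=
    T3.FinalN.torsionN_eq_pt hq0 hq1 hpp.ne_zero hζK ht0' (nsmul_Psi p T w0)
  have h2 : ¬ p ∣ 2 := fun h => hp2 ((Nat.prime_dvd_prime_iff_eq hpp Nat.prime_two).1 h)
  obtain ⟨σ0, hσ0, hσ0ζ⟩ :=
    Fermat.Agent.GL.Local.InertiaField.exists_mem_inertia_apply_zeta (padicPlace p) hpp hA hζ h2
  obtain ⟨s0, c0, hs0ζ, hs0t, -, hs0⟩ := key σ0 hσ0 2 hσ0ζ
  have hk00 : k0 = 0 := by
    have h1 : Psi p T (rho W p σ0 w0) = 2 • Psi p T w0 := by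
      rw [hω σ0 hσ0 2 hσ0ζ, map_nsmul]
    rw [hs0 w0 _ hw, hw] at h1
    have h3 := T3.KummerN.k0_dvd hq0 hq1 hpp.ne_zero hζK ht0' s0 hs0ζ hs0t i0 k0 h1
    refine T3.KummerN.k0_eq_zero hpp h3 ?_ hk0
    have h21 : ((2 : ℕ) : ℤ) - 1 = 1 := by norm_num
    rw [h21]
    intro h
    have := Int.natCast_dvd_natCast.1 (by simpa using h : ((p : ℕ) : ℤ) ∣ ((1 : ℕ) : ℤ))
    exact hpp.one_lt.ne' (Nat.dvd_one.1 this)
  subst hk00
  rw [pow_zero, mul_one] at hw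
  have hζKp : ζK ^ p = 1 := by
    apply Units.ext
    rw [Units.val_pow_eq_pow_val, Units.val_one]
    exact hζK.pow_eq_one
  have hi0 : ¬ p ∣ i0 := by
    rintro ⟨m, rfl⟩
    apply hw0
    apply Psi_injective p T
    rw [hw, map_zero, pow_mul, hζKp, one_pow]
    exact (Final.tateP_eq_zero_iff hq0 hq1 1).2 (Subgroup.one_mem _)
  -- (M4)
  obtain ⟨i, k, -, -, hx⟩ :=
    T3.FinalN.torsionN_eq_pt hq0 hq1 hpp.ne_zero hζK ht0' (nsmul_Psi p T x)
  obtain ⟨j0, hj0⟩ := T3.KummerN.exists_exponent hpp hi0 k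
  refine ⟨α1 ^ (k * j0), pow_ne_zero _ hα0, pow_mem hαA _, ?_, ?_⟩
  · rw [← inv_pow]
    exact pow_mem hαA' _
  intro ρ hρ κ hκ
  obtain ⟨s, c, hsζ, hst, hρα, hs⟩ := key ρ hρ.1 1 (by rw [pow_one]; exact hρ.2)
  rw [pow_one] at hsζ
  have h1 : Psi p T (rho W p ρ x) = Psi p T x + κ • Psi p T w0 := by
    rw [hκ, map_add, map_nsmul]
  rw [hs x _ hx, hx, hw] at h1
  have h3 := T3.KummerN.cocycle_dvd hq0 hq1 hpp.ne_zero hζK ht0' s hsζ hst i k κ i0 h1
  obtain ⟨m, hm⟩ := hj0 c κ h3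
  rw [map_pow, hρα, mul_pow, ← pow_mul]
  congr 1
  have hζ0 : ζ ≠ 0 := hζ.ne_zero hpp.ne_zero
  have hm' : ((c * (k * j0) : ℕ) : ℤ) = (κ : ℤ) + (p : ℤ) * m := by
    push_cast
    push_cast at hm
    linarith
  rw [← zpow_natCast ζ (c * (k * j0)), hm', zpow_add₀ hζ0, zpow_mul, zpow_natCast, zpow_natCast,
    hζ.pow_eq_one, one_zpow, mul_one]

end Fermat.Agent.GF.ETate.Main
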