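/-
GATE-F (S44) / GF-ETATE, PLUG (helper70): the supplier (S-a) `KummerUnit W p A ζ` in the binder
vocabulary of helper61's `Provider44T.TropZeroT` (`hss : W.IsSemistableModel`, `hmult : p ∣ Δ`,
`hp5 : 5 ≤ p`, `hAp : A = padicPlace p`), from `Main.kummerUnit_tate`.
-/
import Mathlib
import Fermat.Prelude.Def_FLTPrelim_Modularity
import Fermat.Agent.GF.ETate.Main

set_option autoImplicit false

namespace Fermat.Agent.GF.ETate.Plug

open Fermat.Agent.Common_helper32 Fermat.Agent.GF.ETate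

/-- **(S-a)** in the `TropZeroT` vocabulary. -/
theorem kummerUnit_of_semistable (W : WeierstrassCurve ℤ) (hΔ : W.Δ ≠ 0) (p : ℕ)
    [hp : Fact p.Prime] (hp5 : 5 ≤ p) (hss : W.IsSemistableModel) (hmult : (p : ℤ) ∣ W.Δ)
    (hpeu : (W.map (Int.castRingHom ℚ)).IsPeuRamifieeAt p p)
    {A : ValuationSubring Qb} (hAp : A = padicPlace p) {ζ : Qb} (hζ : IsPrimitiveRoot ζ p) :
    KummerUnit W p A ζ := by
  subst hAp
  exact Main.kummerUnit_tate p (by omega) W hΔ hmult (hss p hp.out hmult) hpeu hζ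

/-- the same with `p ≠ 2` only. -/
theorem kummerUnit_of_semistable' (W : WeierstrassCurve ℤ) (hΔ : W.Δ ≠ 0) (p : ℕ)
    [hp : Fact p.Prime] (hp2 : p ≠ 2) (hss : W.IsSemistableModel) (hmult : (p : ℤ) ∣ W.Δ)
    (hpeu : (W.map (Int.castRingHom ℚ)).IsPeuRamifieeAt p p)
    {A : ValuationSubring Qb} (hAp : A = padicPlace p) {ζ : Qb} (hζ : IsPrimitiveRoot ζ p) :
    KummerUnit W p A ζ := by
  subst hAp
  exact Main.kummerUnit_tate p hp2 W hΔ hmult (hss p hp.out hmult) hpeu hζ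

end Fermat.Agent.GF.ETate.Plug
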