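/-
GATE-F (S44) / GF-ETATE, SEAM file (helper90, reader job of helper13 6281): the two consumer seams
of the pin `KummerUnit W p A ζ` (`GF/ETate/Pin.lean`, helper70), compile-verified.

* `peu_valuation_Y0_of_kummerUnit` : seam Pin → helper61 `GF/Setup/PeuY0.lean`: the twin of
  `peu_valuation_Y0` with `HasFinOrder` REPLACED by `KummerUnit W p A ζ` (transfer along `C.equiv`);
  no `hp2`, no `hA` needed.
* `peu_dvd_of_kummerUnit` : seam Pin → helper31 `GF/F2Asm/PeuBridge.lean`: the binder `hpeu`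
  (`p ∣ v_{K'}(t ^ p)`) on the frozen `W[p]` from `KummerUnit`.
* `peu_dvd_Y0_of_kummerUnit` : both at once, on `Y₀`.
-/
import Mathlib
import Fermat.Agent.GF.Setup.PeuY0
import Fermat.Agent.GF.ETate.Pin
import Fermat.Agent.GF.F2Asm.PeuBridge

set_option autoImplicit false
set_option linter.unusedSectionVars false

noncomputable section

namespace Fermat.Agent.GF.ETate.Seam

open AlgebraicCurve
open Fermat.Agent.Common_helper32
open Fermat.Agent.GJ Fermat.Agent.GJ.KumGroup Fermat.Agent.GJ.Kum.KumType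
open Fermat.Agent.GJ.CycChar Fermat.Agent.GB.A.A6.ECDet
open Fermat.Agent.GH.Closure Fermat.Agent.GF.Peu
open Fermat.Agent.GF.Setup.Plane Fermat.Agent.GF.Shape.Sub
open Fermat.Agent.GF.Setup.PeuY0 Fermat.Agent.GF.ETate Fermat.Agent.GF.F2Asm.PeuBridge

variable {W : WeierstrassCurve ℤ} {p : ℕ} [Fact p.Prime]

/-- seam Pin → helper31 PeuBridge: the binder `hpeu` on the frozen `W[p]` from `KummerUnit`. -/
theorem peu_dvd_of_kummerUnit {A : ValuationSubring Qb} {ζ : Qb}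
    (hA : (p : Qb) ∈ A.nonunits) (hζ : IsPrimitiveRoot ζ p)
    (h : KummerUnit W p A ζ) {w0 : Tp W p} (hw0 : w0 ≠ 0)
    (hω : ∀ σ ∈ A.inertiaSubgroupIn ℚ, ∀ k : ℕ, σ ζ = ζ ^ k → rho W p σ w0 = k • w0)
    (x : Tp W p)
    (κ : GQ → ℕ) (hκ : ∀ ρ : GQ, IsTameFix A ζ ρ → rho W p ρ x = x + κ ρ • w0)
    {t : Qb} (ht0 : t ≠ 0) (htp : ∀ ρ : GQ, IsTameFix A ζ ρ → ρ (t ^ p) = t ^ p)
    (ht : ∀ ρ : GQ, IsTameFix A ζ ρ → ρ t * ζ ^ κ ρ = t) {n : ℤ}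
    (hn : A.valuation (t ^ p) = A.valuation (1 - ζ) ^ n) : (p : ℤ) ∣ n := by
  obtain ⟨α, hα0, hα, hα', hρα⟩ := h w0 hw0 hω x
  exact peu_dvd_of_unit (act := actTp W p) hA hζ hw0 (nsmul_eq_zero_Tp w0) x κ hκ hα0 hα hα' hρα
    ht0 htp ht hn

variable {M : ℕ} [NeZero M] {C : Copy W p M}

/-- `C.equiv.symm` intertwines the action on `Y₀` with the frozen `rho W p`. -/
theorem equiv_symm_actY0 (σ : GQ) (z : C.Y0) :
    C.equiv.symm (actY0 C σ z) = rho W p σ (C.equiv.symm z) := by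
  obtain ⟨x, rfl⟩ := C.equiv.surjective z
  rw [LinearEquiv.symm_apply_apply]
  apply C.equiv.injective
  rw [LinearEquiv.apply_symm_apply]
  apply Subtype.ext
  rw [coe_actY0, C.equiv_rho]

/-- seam Pin → helper61 : the twin of `peu_valuation_Y0` consuming `KummerUnit`. -/
theorem peu_valuation_Y0_of_kummerUnit
    {A : ValuationSubring Qb} {ζ : Qb} (hζ : IsPrimitiveRoot ζ p)
    (h : KummerUnit W p A ζ)
    {M₀ : AddSubgroup (Additive (Kum Kb (FK M) p))}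
    (D : LineData (gal M p) (A.inertiaSubgroupIn ℚ) C.Y0 M₀
      (fun σ => ((cyc p σ : (ZMod p)ˣ) : ZMod p)))
    {y : Additive (Kum Kb (FK M) p)} (hy : y ∈ C.Y0)
    {γ : Qb} (hγ0 : γ ≠ 0) (hγp : ∀ ρ : GQ, IsTameFix A ζ ρ → ρ (γ ^ p) = γ ^ p)
    (hγL : ∀ ρ : GQ, IsTameFix A ζ ρ → gal M p ρ y = y → ρ γ = γ) :
    ∃ β : Qb, β ≠ 0 ∧ (∀ ρ : GQ, IsTameFix A ζ ρ → ρ β = β) ∧
      A.valuation (γ ^ p) = A.valuation β ^ p := by
  set w0 : C.Y0 := ⟨D.w₀, D.mem_Y⟩ with hw0def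
  have hw0 : w0 ≠ 0 := fun h0 => D.ne_zero (congrArg Subtype.val h0)
  set v0 : Tp W p := C.equiv.symm w0 with hv0
  have hv0ne : v0 ≠ 0 := by
    intro h0
    apply hw0
    have := congrArg C.equiv h0
    rwa [hv0, LinearEquiv.apply_symm_apply, map_zero] at this
  have hωY : ∀ σ ∈ A.inertiaSubgroupIn ℚ, ∀ k : ℕ, σ ζ = ζ ^ k → actY0 C σ w0 = k • w0 := by
    intro σ hσ k hk
    apply Subtype.ext
    rw [coe_actY0, D.act σ hσ, (cyc_eq_natCast_iff hζ σ k).2 hk, Nat.cast_smul_eq_nsmul]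
    rfl
  have hω : ∀ σ ∈ A.inertiaSubgroupIn ℚ, ∀ k : ℕ, σ ζ = ζ ^ k → rho W p σ v0 = k • v0 := by
    intro σ hσ k hk
    rw [hv0, ← equiv_symm_actY0, hωY σ hσ k hk, map_nsmul]
  have hshapeY : ∀ ρ : GQ, IsTameFix A ζ ρ → ∃ κ : ℕ,
      actY0 C ρ ⟨y, hy⟩ = ⟨y, hy⟩ + κ • w0 := by
    intro ρ hρ
    refine ⟨(D.kappa y ρ).val, Subtype.ext ?_⟩
    have h1 := D.kappa_spec ρ hρ.1 y hy
    rw [coe_actY0]
    have h2 : gal M p ρ y = y + D.kappa y ρ • D.w₀ := by rw [← h1]; abel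
    rw [h2, Submodule.coe_add, ← Nat.cast_smul_eq_nsmul (ZMod p), ZMod.natCast_zmod_val]
    rfl
  set x : Tp W p := C.equiv.symm ⟨y, hy⟩ with hx
  have hshape : ∀ ρ : GQ, IsTameFix A ζ ρ → ∃ κ : ℕ, rho W p ρ x = x + κ • v0 := by
    intro ρ hρ
    obtain ⟨κ, hκ⟩ := hshapeY ρ hρ
    exact ⟨κ, by rw [hx, ← equiv_symm_actY0, hκ, map_add, map_nsmul]⟩
  refine peu_valuation_of_kummerUnit hζ h hv0ne hω x hshape hγ0 hγp ?_
  intro ρ hρ hfix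
  apply hγL ρ hρ
  have h1 : actY0 C ρ ⟨y, hy⟩ = ⟨y, hy⟩ := by
    apply C.equiv.symm.injective
    rw [equiv_symm_actY0, ← hx, hfix]
  exact congrArg Subtype.val h1

/-- both seams at once on `Y₀`: `t ^ p = c ∈ K'`, `t ∈ K'(y)` (Galois form) ⟹ `p ∣ v_{K'}(c)`. -/
theorem peu_dvd_Y0_of_kummerUnit
    {A : ValuationSubring Qb} (hA : (p : Qb) ∈ A.nonunits) {ζ : Qb} (hζ : IsPrimitiveRoot ζ p)
    (h : KummerUnit W p A ζ)
    {M₀ : AddSubgroup (Additive (Kum Kb (FK M) p))}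
    (D : LineData (gal M p) (A.inertiaSubgroupIn ℚ) C.Y0 M₀
      (fun σ => ((cyc p σ : (ZMod p)ˣ) : ZMod p)))
    {y : Additive (Kum Kb (FK M) p)} (hy : y ∈ C.Y0)
    {t : Qb} (ht0 : t ≠ 0) (htp : ∀ ρ : GQ, IsTameFix A ζ ρ → ρ (t ^ p) = t ^ p)
    (htL : ∀ ρ : GQ, IsTameFix A ζ ρ → gal M p ρ y = y → ρ t = t) {n : ℤ}
    (hn : A.valuation (t ^ p) = A.valuation (1 - ζ) ^ n) : (p : ℤ) ∣ n := by
  obtain ⟨β, hβ0, hβ, hval⟩ := peu_valuation_Y0_of_kummerUnit hζ h D hy ht0 htp htL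
  exact dvd_of_valuation_eq_pow hA hζ hβ0 hβ hval hn

end Fermat.Agent.GF.ETate.Seam
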