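/-
GATE-F (S44) / GF-ETATE, slice of E4 (helper90): **a ring endomorphism `σ` fixing both Weierstrass
curves `W`, `E = C • W` and trivial on the residue field fixes the variable change `C`** — without
any uniqueness theorem for variable changes.

Generic part (`K` a field / an ultrametric normed field; Mathlib + `S05/VarChange` only):
* `map_u_pow_four` : `σ (u ^ 4) = u ^ 4` from `E.c₄ = u⁻⁴ W.c₄`, `E.c₄ ≠ 0`;
* `eq_one_of_pow_four_eq_one` : `ε ^ 4 = 1`, `‖ε − 1‖ < 1`, `‖4‖ = 1` ⟹ `ε = 1`;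
* `map_u_eq_of_pow_four` : `‖u‖ = 1`, `‖σ u − u‖ < 1`, `σ (u ^ 4) = u ^ 4` ⟹ `σ u = u`;
* `map_rst_eq` : `σ u = u` ⟹ `σ s = s`, `σ r = r`, `σ t = t` (forced by `a₁ a₂ a₃`; `2, 3 ≠ 0`);
* `map_vcX`, `map_vcY` : `σ` commutes with the coordinate maps of `C`.

Instance `K = ℂ_[p]`, `σ = extK p τ` (`GF/ETate/Ext.lean`), `E = tateCurve q`, `q` from `ℚ_[p]`:
* `extK_fixes_tateUnif` : for `τ` with `localGaloisToGlobal p τ ∈ I_{padicPlace p}`, `p ≠ 2`,
  `p ∤ c₄(W)`: `extK p τ` fixes `T.C.u, T.C.r, T.C.s, T.C.t`;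
* `extK_vcX`, `extK_vcY`.
-/
import Mathlib
import Fermat.Agent.S05.VarChange
import Fermat.Agent.GF.ETate.Ext
import Fermat.Agent.GF.ETate.Param

set_option autoImplicit false
set_option linter.unusedSectionVars false

noncomputable section

namespace Fermat.Agent.GF.ETate.Sign

open WeierstrassCurve
open Fermat.Agent.S05

/-! ### algebra: `u ^ 4` and `r, s, t` -/

section Algebra

variable {K : Type*} [Field K] (σ : K →+* K)

theorem map_units_inv (u : Kˣ) : σ ((u⁻¹ : Kˣ) : K) = (σ (u : K))⁻¹ := by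
  rw [Units.val_inv_eq_inv_val, map_inv₀]

/-- `σ` fixes `u ^ 4` when it fixes `W` and `E = C • W` and `E.c₄ ≠ 0`. -/
theorem map_u_pow_four {W E : WeierstrassCurve K} {C : VariableChange K} (hC : C • W = E)
    (hW : W.map σ = W) (hE : E.map σ = E) (hc : E.c₄ ≠ 0) :
    σ ((C.u : K) ^ 4) = (C.u : K) ^ 4 := by
  have hWc : σ W.c₄ = W.c₄ := by
    have := WeierstrassCurve.map_c₄ W σ
    rw [hW] at this
    exact this.symm
  have hEc : σ E.c₄ = E.c₄ := by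
    have := WeierstrassCurve.map_c₄ E σ
    rw [hE] at this
    exact this.symm
  have h1 : E.c₄ = ((C.u⁻¹ : Kˣ) : K) ^ 4 * W.c₄ := by rw [← hC, variableChange_c₄]
  have hu0 : (C.u : K) ≠ 0 := C.u.ne_zero
  have h2 : (C.u : K) ^ 4 * E.c₄ = W.c₄ := by
    rw [h1, Units.val_inv_eq_inv_val, inv_pow, ← mul_assoc,
      mul_inv_cancel₀ (pow_ne_zero 4 hu0), one_mul]
  have h3 : σ ((C.u : K) ^ 4) * E.c₄ = W.c₄ := by
    have := congrArg σ h2
    rwa [map_mul, hEc, hWc] at this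
  exact mul_right_cancel₀ hc (h3.trans h2.symm)

/-- `σ u = u` ⟹ `σ` fixes `s, r, t`: they are forced by `a₁, a₂, a₃` of `C • W = E`. -/
theorem map_rst_eq {W E : WeierstrassCurve K} {C : VariableChange K} (hC : C • W = E)
    (hW : W.map σ = W) (hE : E.map σ = E) (h2 : (2 : K) ≠ 0) (h3 : (3 : K) ≠ 0)
    (hu : σ (C.u : K) = (C.u : K)) :
    σ C.s = C.s ∧ σ C.r = C.r ∧ σ C.t = C.t := by
  have hu0 : (C.u : K) ≠ 0 := C.u.ne_zero
  have hui : σ ((C.u⁻¹ : Kˣ) : K) = ((C.u⁻¹ : Kˣ) : K) := by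
    rw [map_units_inv, hu, Units.val_inv_eq_inv_val]
  have hui0 : ((C.u⁻¹ : Kˣ) : K) ≠ 0 := (C.u⁻¹).ne_zero
  have fixW : ∀ f : WeierstrassCurve K → K, (∀ V : WeierstrassCurve K, (V.map σ |> f) = σ (f V)) →
      σ (f W) = f W := by
    intro f hf
    rw [← hf W, hW]
  have hWa1 : σ W.a₁ = W.a₁ := fixW (fun V => V.a₁) (fun V => rfl)
  have hWa2 : σ W.a₂ = W.a₂ := fixW (fun V => V.a₂) (fun V => rfl)
  have hWa3 : σ W.a₃ = W.a₃ := fixW (fun V => V.a₃) (fun V => rfl)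
  have hEa1 : σ E.a₁ = E.a₁ := by
    have : (E.map σ).a₁ = σ E.a₁ := rfl
    rw [← this, hE]
  have hEa2 : σ E.a₂ = E.a₂ := by
    have : (E.map σ).a₂ = σ E.a₂ := rfl
    rw [← this, hE]
  have hEa3 : σ E.a₃ = E.a₃ := by
    have : (E.map σ).a₃ = σ E.a₃ := rfl
    rw [← this, hE]
  have e1 : E.a₁ = ((C.u⁻¹ : Kˣ) : K) * (W.a₁ + 2 * C.s) := by rw [← hC, variableChange_a₁]
  have e2 : E.a₂ = ((C.u⁻¹ : Kˣ) : K) ^ 2 * (W.a₂ - C.s * W.a₁ + 3 * C.r - C.s ^ 2) := by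
    rw [← hC, variableChange_a₂]
  have e3 : E.a₃ = ((C.u⁻¹ : Kˣ) : K) ^ 3 * (W.a₃ + C.r * W.a₁ + 2 * C.t) := by
    rw [← hC, variableChange_a₃]
  -- `s`
  have hs : σ C.s = C.s := by
    have h := congrArg σ e1
    rw [hEa1, map_mul, hui, map_add, hWa1, map_mul, map_ofNat, e1] at h
    have h' := mul_left_cancel₀ hui0 h
    have h'' : (2 : K) * C.s = 2 * σ C.s := add_left_cancel h'
    exact (mul_left_cancel₀ h2 h'').symm
  -- `r`
  have hr : σ C.r = C.r := by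
    have h := congrArg σ e2
    rw [hEa2, map_mul, map_pow, hui, map_sub, map_add, map_sub, hWa2, map_mul, hs, hWa1, map_mul,
      map_ofNat, map_pow, hs, e2] at h
    have h' := mul_left_cancel₀ (pow_ne_zero 2 hui0) h
    have h'' : (3 : K) * C.r = 3 * σ C.r := by linear_combination h'
    exact (mul_left_cancel₀ h3 h'').symm
  -- `t`
  have ht : σ C.t = C.t := by
    have h := congrArg σ e3
    rw [hEa3, map_mul, map_pow, hui, map_add, map_add, hWa3, map_mul, hr, hWa1, map_mul,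
      map_ofNat, e3] at h
    have h' := mul_left_cancel₀ (pow_ne_zero 3 hui0) h
    have h'' : (2 : K) * C.t = 2 * σ C.t := add_left_cancel h'
    exact (mul_left_cancel₀ h2 h'').symm
  exact ⟨hs, hr, ht⟩

/-- `σ` commutes with the `X`-coordinate map of a `σ`-fixed variable change. -/
theorem map_vcX {C : VariableChange K} (hu : σ (C.u : K) = (C.u : K)) (hr : σ C.r = C.r) (x : K) :
    σ (vcX C x) = vcX C (σ x) := by
  unfold vcX
  rw [map_add, map_mul, map_pow, hu, hr]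

/-- `σ` commutes with the `Y`-coordinate map of a `σ`-fixed variable change. -/
theorem map_vcY {C : VariableChange K} (hu : σ (C.u : K) = (C.u : K)) (hs : σ C.s = C.s)
    (ht : σ C.t = C.t) (x y : K) :
    σ (vcY C x y) = vcY C (σ x) (σ y) := by
  unfold vcY
  rw [map_add, map_add, map_mul, map_pow, hu, map_mul, map_mul, map_pow, hu, hs, ht]

end Algebra

/-! ### the norm argument: `σ u = u` -/

section Norm

variable {K : Type*} [NormedField K] [IsUltrametricDist K]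

/-- a fourth root of unity congruent to `1` is `1` (residue characteristic `≠ 2`). -/
theorem eq_one_of_pow_four_eq_one {ε : K} (h4 : ‖(4 : K)‖ = 1) (hε : ε ^ 4 = 1)
    (hres : ‖ε - 1‖ < 1) : ε = 1 := by
  by_contra hne
  have hfac : (ε - 1) * (ε ^ 3 + ε ^ 2 + ε + 1) = 0 := by
    have : (ε - 1) * (ε ^ 3 + ε ^ 2 + ε + 1) = ε ^ 4 - 1 := by ring
    rw [this, hε, sub_self]
  have h0 : ε ^ 3 + ε ^ 2 + ε + 1 = 0 := by
    rcases mul_eq_zero.1 hfac with h | h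
    · exact absurd (sub_eq_zero.1 h) hne
    · exact h
  -- `ε³ + ε² + ε + 1 = 4 + (ε − 1)(ε² + 2ε + 3)`
  have hε1 : ‖ε‖ ≤ 1 := by
    have : ε = (ε - 1) + 1 := by ring
    rw [this]
    refine (IsUltrametricDist.norm_add_le_max _ _).trans (max_le hres.le ?_)
    rw [norm_one]
  have hA : ‖ε ^ 2 + 2 * ε + 3‖ ≤ 1 := by
    have h2 : ‖(2 : K)‖ ≤ 1 := by
      have := IsUltrametricDist.norm_natCast_le_one K 2
      simpa using this
    have h3 : ‖(3 : K)‖ ≤ 1 := by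
      have := IsUltrametricDist.norm_natCast_le_one K 3
      simpa using this
    refine (IsUltrametricDist.norm_add_le_max _ _).trans (max_le ?_ h3)
    refine (IsUltrametricDist.norm_add_le_max _ _).trans (max_le ?_ ?_)
    · rw [norm_pow]; exact pow_le_one₀ (norm_nonneg _) hε1
    · rw [norm_mul]; exact mul_le_one₀ h2 (norm_nonneg _) hε1
  have hB : ‖(ε - 1) * (ε ^ 2 + 2 * ε + 3)‖ < 1 := by
    rw [norm_mul]
    calc ‖ε - 1‖ * ‖ε ^ 2 + 2 * ε + 3‖ ≤ ‖ε - 1‖ * 1 :=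
          mul_le_mul_of_nonneg_left hA (norm_nonneg _)
      _ = ‖ε - 1‖ := mul_one _
      _ < 1 := hres
  have h4' : (4 : K) = -((ε - 1) * (ε ^ 2 + 2 * ε + 3)) := by
    have : ε ^ 3 + ε ^ 2 + ε + 1 = 4 + (ε - 1) * (ε ^ 2 + 2 * ε + 3) := by ring
    rw [this] at h0
    exact eq_neg_of_add_eq_zero_left h0
  rw [h4', norm_neg] at h4
  exact absurd h4 hB.ne

/-- **`σ u = u`** for a unit `u` with `σ (u ^ 4) = u ^ 4` and `σ u ≡ u` modulo the maximal ideal. -/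
theorem map_u_eq_of_pow_four (σ : K →+* K) {u : K} (hu1 : ‖u‖ = 1) (h4 : ‖(4 : K)‖ = 1)
    (hres : ‖σ u - u‖ < 1) (hu4 : σ (u ^ 4) = u ^ 4) : σ u = u := by
  have hu0 : u ≠ 0 := by
    intro h
    rw [h, norm_zero] at hu1
    exact zero_ne_one hu1
  set ε : K := σ u / u with hε
  have hε4 : ε ^ 4 = 1 := by
    rw [hε, div_pow, ← map_pow, hu4, div_self (pow_ne_zero 4 hu0)]
  have hεres : ‖ε - 1‖ < 1 := by
    have : ε - 1 = (σ u - u) / u := by
      rw [hε, sub_div, div_self hu0]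
    rw [this, norm_div, hu1, div_one]
    exact hres
  have h1 := eq_one_of_pow_four_eq_one h4 hε4 hεres
  rw [hε, div_eq_one_iff_eq hu0] at h1
  exact h1

end Norm

/-! ### the instance `K = ℂ_[p]`, `σ = extK p τ`, `E = tateCurve q` with `q` from `ℚ_[p]` -/

section Padic

open Fermat.Agent.GF.ETate.Ext Fermat.Agent.GZ.Tate Fermat.Agent.GZ.Tate.T4

variable (p : ℕ) [hp : Fact p.Prime]

local notation "Qb" => AlgebraicClosure ℚ

/-- `extK p τ` as a ring endomorphism of `ℂ_[p]`. -/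
def extHom (τ : PadicAlgCl p ≃ₐ[ℚ_[p]] PadicAlgCl p) : ℂ_[p] →+* ℂ_[p] :=
  (extK p τ : ℂ_[p] ≃+* ℂ_[p]).toRingHom

theorem extHom_apply (τ : PadicAlgCl p ≃ₐ[ℚ_[p]] PadicAlgCl p) (z : ℂ_[p]) :
    extHom p τ z = extK p τ z := rfl

theorem map_extHom_intCurve (τ : PadicAlgCl p ≃ₐ[ℚ_[p]] PadicAlgCl p) (W : WeierstrassCurve ℤ) :
    (W.map (Int.castRingHom ℂ_[p])).map (extHom p τ) = W.map (Int.castRingHom ℂ_[p]) := by
  rw [WeierstrassCurve.map_map]
  congr 1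
  exact RingHom.ext_int _ _

theorem map_extHom_tateCurve (τ : PadicAlgCl p ≃ₐ[ℚ_[p]] PadicAlgCl p) (q' : ℚ_[p]) :
    (tateCurve (algebraMap ℚ_[p] ℂ_[p] q')).map (extHom p τ)
      = tateCurve (algebraMap ℚ_[p] ℂ_[p] q') := by
  rw [Fermat.Agent.GZ.Tate.T2.Equivar.map_tateCurve (extHom p τ) (fun x => norm_extK p τ x),
    extHom_apply, extK_algebraMap]

theorem norm_four_padicComplex (hp2 : p ≠ 2) : ‖(4 : ℂ_[p])‖ = 1 := by
  have hpp : p.Prime := hp.out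
  have h : ¬ (p : ℤ) ∣ (4 : ℤ) := by
    intro hd
    have h1 : p ∣ 4 := by exact_mod_cast hd
    have h2 : p ∣ 2 ^ 2 := by norm_num; exact h1
    have h3 : p ∣ 2 := hpp.dvd_of_dvd_pow h2
    exact hp2 ((Nat.prime_dvd_prime_iff_eq hpp Nat.prime_two).1 h3)
  have := norm_intCast_eq_one_of_not_dvd (K := ℂ_[p]) hpp (norm_natCast_self_padicComplex p) h
  simpa using this

/-- the `u` of a Tate uniformisation of `W/ℤ` with `p ∤ c₄` has norm `1`. -/
theorem norm_u_tateUnif (W : WeierstrassCurve ℤ) (hc₄ : ¬ (p : ℤ) ∣ W.c₄)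
    (T : TateUnif W ℂ_[p]) : ‖(T.C.u : ℂ_[p])‖ = 1 := by
  have hpp : p.Prime := hp.out
  have hK : ((p : ℕ) : ℂ_[p]) ∈ (unitBall ℂ_[p]).nonunits :=
    mem_nonunits_unitBall.2 (norm_natCast_self_padicComplex p)
  have hW : IntegralCoeffs (unitBall ℂ_[p]) (W.map (Int.castRingHom ℂ_[p])) :=
    integralCoeffs_map_int W _
  have hW' : IntegralCoeffs (unitBall ℂ_[p]) (T.C • (W.map (Int.castRingHom ℂ_[p]))) := by
    rw [T.hC]; exact integralCoeffs_tateCurve T.norm_q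
  have hc : (W.map (Int.castRingHom ℂ_[p])).c₄ ∉ (unitBall ℂ_[p]).nonunits := by
    rw [WeierstrassCurve.map_c₄]
    exact intCast_notMem_nonunits hpp hK hc₄
  have hc' : (T.C • (W.map (Int.castRingHom ℂ_[p]))).c₄ ∉ (unitBall ℂ_[p]).nonunits := by
    rw [T.hC]; exact tateCurve_c₄_notMem T.norm_q
  have hCint : IntegralChange (unitBall ℂ_[p]) T.C := integralChange_of_c₄ hW hW' hc hc'
  have h1 : ‖(T.C.u : ℂ_[p])‖ ≤ 1 := mem_unitBall.1 hCint.u
  have h2 : ‖(T.C.u : ℂ_[p])⁻¹‖ ≤ 1 := mem_unitBall.1 hCint.u_inv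
  rw [norm_inv] at h2
  have hpos : 0 < ‖(T.C.u : ℂ_[p])‖ := norm_pos_iff.2 T.C.u.ne_zero
  exact le_antisymm h1 ((inv_le_one₀ hpos).1 h2)

/-- **inertia fixes the variable change of the Tate uniformisation** (`q` from `ℚ_[p]`, `p ≠ 2`,
`p ∤ c₄`). -/
theorem extK_fixes_tateUnif (hp2 : p ≠ 2) (W : WeierstrassCurve ℤ) (hc₄ : ¬ (p : ℤ) ∣ W.c₄)
    (T : TateUnif W ℂ_[p]) {q' : ℚ_[p]} (hq : T.q = algebraMap ℚ_[p] ℂ_[p] q')
    {τ : PadicAlgCl p ≃ₐ[ℚ_[p]] PadicAlgCl p}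
    (hτ : localGaloisToGlobal p τ ∈ (padicPlace p).inertiaSubgroupIn ℚ) :
    extK p τ (T.C.u : ℂ_[p]) = (T.C.u : ℂ_[p]) ∧ extK p τ T.C.r = T.C.r ∧
      extK p τ T.C.s = T.C.s ∧ extK p τ T.C.t = T.C.t := by
  have hC : T.C • (W.map (Int.castRingHom ℂ_[p])) = tateCurve T.q := T.hC
  have hWf := map_extHom_intCurve p τ W
  have hEf : (tateCurve T.q).map (extHom p τ) = tateCurve T.q := by
    rw [hq]; exact map_extHom_tateCurve p τ q'
  have hc : (tateCurve T.q).c₄ ≠ 0 := by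
    intro h0
    apply tateCurve_c₄_notMem (K := ℂ_[p]) T.norm_q
    rw [h0]
    exact mem_nonunits_unitBall.2 (by rw [norm_zero]; exact zero_lt_one)
  have hu1 := norm_u_tateUnif p W hc₄ T
  have hu4 := map_u_pow_four (extHom p τ) hC hWf hEf hc
  have hres : ‖extHom p τ (T.C.u : ℂ_[p]) - (T.C.u : ℂ_[p])‖ < 1 := by
    rw [extHom_apply]
    exact norm_extK_sub_lt_one p hτ hu1.le
  have hu := map_u_eq_of_pow_four (extHom p τ) hu1 (norm_four_padicComplex p hp2) hres hu4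
  obtain ⟨hs, hr, ht⟩ := map_rst_eq (extHom p τ) hC hWf hEf two_ne_zero three_ne_zero hu
  exact ⟨hu, hr, hs, ht⟩

/-- inertia commutes with the `X`-coordinate map of the Tate uniformisation. -/
theorem extK_vcX (hp2 : p ≠ 2) (W : WeierstrassCurve ℤ) (hc₄ : ¬ (p : ℤ) ∣ W.c₄)
    (T : TateUnif W ℂ_[p]) {q' : ℚ_[p]} (hq : T.q = algebraMap ℚ_[p] ℂ_[p] q')
    {τ : PadicAlgCl p ≃ₐ[ℚ_[p]] PadicAlgCl p}
    (hτ : localGaloisToGlobal p τ ∈ (padicPlace p).inertiaSubgroupIn ℚ) (x : ℂ_[p]) :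
    extK p τ (vcX T.C x) = vcX T.C (extK p τ x) := by
  obtain ⟨hu, hr, -, -⟩ := extK_fixes_tateUnif p hp2 W hc₄ T hq hτ
  exact map_vcX (extHom p τ) hu hr x

/-- inertia commutes with the `Y`-coordinate map of the Tate uniformisation. -/
theorem extK_vcY (hp2 : p ≠ 2) (W : WeierstrassCurve ℤ) (hc₄ : ¬ (p : ℤ) ∣ W.c₄)
    (T : TateUnif W ℂ_[p]) {q' : ℚ_[p]} (hq : T.q = algebraMap ℚ_[p] ℂ_[p] q')
    {τ : PadicAlgCl p ≃ₐ[ℚ_[p]] PadicAlgCl p}
    (hτ : localGaloisToGlobal p τ ∈ (padicPlace p).inertiaSubgroupIn ℚ) (x y : ℂ_[p]) :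
    extK p τ (vcY T.C x y) = vcY T.C (extK p τ x) (extK p τ y) := by
  obtain ⟨hu, -, hs, ht⟩ := extK_fixes_tateUnif p hp2 W hc₄ T hq hτ
  exact map_vcY (extHom p τ) hu hs ht x y

end Padic

end Fermat.Agent.GF.ETate.Sign
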